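/-
PROGRAMME FF (S19), chapter NS (helper9).  `GenPos9` = GENERAL POSITION on a function field `F / K`
satisfying `RR/LSpace.LHyp` (all places of degree one, principal divisors of degree zero), `K`
infinite.  No characteristic assumption, no Riemann-Roch: this is the part of (NS) that lives on
the REDUCED curve.

* `finite_ord_ne_zero`  : a nonzero function has finitely many zeros and poles;
* `exists_ord_pos`      : a nonconstant function has a zero;
* `infinite_place`      : `K` infinite, `F` not constant ⇒ infinitely many places;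
* `exists_genpos`       : for `K`-linearly independent `h : Fin g → F` and a finite set `Bad` of
  places there are `g` DISTINCT places `P i ∉ Bad`, all `h a` regular at all `P i`, with
  `det (h a (P i)) ≠ 0`;
* `eq_zero_of_vecMul` / `eq_zero_of_mulVec` : the two kernel forms of `det ≠ 0`.
-/
import Mathlib
import Fermat.Agent.RR.LSpace
import Fermat.Agent.MW.EMB.Value6

set_option autoImplicit false
set_option linter.unusedSectionVars false

open AlgebraicCurve

namespace Fermat.Agent.FF.NS.GenPos9

open Fermat.Agent.X0.FF Fermat.Agent.RR.LSpace Fermat.Agent.MW.EMB.Value6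

variable {K F : Type*} [Field K] [Field F] [Algebra K F]

/-- A nonzero function has finitely many zeros and poles. -/
theorem finite_ord_ne_zero (H : LHyp K F) {f : F} (hf : f ≠ 0) :
    {v : Place K F | v.ord f ≠ 0}.Finite := by
  have : {v : Place K F | v.ord f ≠ 0} = ↑(divOf H hf).support := by
    ext v
    simp [Finsupp.mem_support_iff, divOf_apply]
  rw [this]
  exact Finset.finite_toSet _

/-- The poles of a function are finite in number. -/
theorem finite_ord_neg (H : LHyp K F) (f : F) : {v : Place K F | v.ord f < 0}.Finite := by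
  rcases eq_or_ne f 0 with rfl | hf
  · simp
  · exact (finite_ord_ne_zero H hf).subset fun v hv => by
      simp only [Set.mem_setOf_eq] at hv ⊢
      omega

/-- A nonconstant function has a zero. -/
theorem exists_ord_pos (H : LHyp K F) {f : F} (hf : ∀ c : K, f ≠ algebraMap K F c) :
    ∃ v : Place K F, 0 < v.ord f := by
  by_contra hno
  push_neg at hno
  obtain ⟨c, hc⟩ := eq_algebraMap_of_forall_ord_nonneg H (f := f⁻¹) (fun v => by
    rw [v.ord_inv]
    have := hno v
    omega)
  apply hf c⁻¹
  rw [map_inv₀, ← hc, inv_inv]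

/-- A function field with infinite constant field has infinitely many places. -/
theorem infinite_place (H : LHyp K F) [Infinite K] {x : F}
    (hx : ∀ c : K, x ≠ algebraMap K F c) : Infinite (Place K F) := by
  have hex : ∀ c : K, ∃ v : Place K F, 0 < v.ord (x - algebraMap K F c) := fun c =>
    exists_ord_pos H (fun c' h => hx (c' + c) (by rw [map_add, ← h]; ring))
  choose z hz using hex
  have hmem : ∀ c, x ∈ (z c).toValuationSubring := by
    intro c
    have h1 : x - algebraMap K F c ∈ (z c).toValuationSubring :=
      ffp_mem_of_ord_nonneg _ (hz c).le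
    have h2 := add_mem h1 ((z c).algebraMap_mem' c)
    simpa using h2
  have hval : ∀ c, valF H (z c) x = c := fun c =>
    valF_unique H _ (hmem c) c (Or.inr (hz c))
  refine Infinite.of_injective z ?_
  intro c c' hcc
  have h1 := hval c
  rw [hcc, hval c'] at h1
  exact h1.symm

section Main

variable (H : LHyp K F) {g : ℕ} (h : Fin g → F)

/-- The coefficient vectors `c` such that `∑ c_a h_a` vanishes on `S`. -/
def evKer (S : Finset (Place K F)) : Submodule K (Fin g → K) where
  carrier := {c | ∀ v ∈ S, ∑ a, c a * valF H v (h a) = 0}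
  add_mem' := by
    intro c c' hc hc' v hv
    simp only [Pi.add_apply, add_mul, Finset.sum_add_distrib, hc v hv, hc' v hv, add_zero]
  zero_mem' := by
    intro v _
    simp
  smul_mem' := by
    intro r c hc v hv
    simp only [Pi.smul_apply, smul_eq_mul, mul_assoc, ← Finset.mul_sum, hc v hv, mul_zero]

theorem mem_evKer {S : Finset (Place K F)} {c : Fin g → K} :
    c ∈ evKer H h S ↔ ∀ v ∈ S, ∑ a, c a * valF H v (h a) = 0 := Iff.rfl

theorem evKer_insert_le [DecidableEq (Place K F)] (S : Finset (Place K F)) (v : Place K F) :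
    evKer H h (insert v S) ≤ evKer H h S := fun _ hc w hw =>
  hc w (Finset.mem_insert_of_mem hw)

/-- The inductive step: a generic new point cuts the kernel down. -/
theorem exists_step [DecidableEq (Place K F)] [Infinite (Place K F)]
    (hli : LinearIndependent K h)
    (Bad : Set (Place K F)) (hBad : Bad.Finite) (S : Finset (Place K F)) :
    ∃ v : Place K F, v ∉ S ∧ v ∉ Bad ∧ (∀ a, 0 ≤ v.ord (h a)) ∧
      Module.finrank K (evKer H h (insert v S)) ≤ Module.finrank K (evKer H h S) - 1 := by
  have hpoles : (⋃ a, {v : Place K F | v.ord (h a) < 0}).Finite :=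
    Set.finite_iUnion fun a => finite_ord_neg H (h a)
  by_cases hbot : evKer H h S = ⊥
  · have hfin : (↑S ∪ Bad ∪ ⋃ a, {v : Place K F | v.ord (h a) < 0}).Finite :=
      (S.finite_toSet.union hBad).union hpoles
    obtain ⟨v, hv⟩ := hfin.infinite_compl.nonempty
    simp only [Set.mem_compl_iff, Set.mem_union, Finset.mem_coe, Set.mem_iUnion, Set.mem_setOf_eq,
      not_or, not_exists, not_lt] at hv
    refine ⟨v, hv.1.1, hv.1.2, hv.2, ?_⟩
    have hle : evKer H h (insert v S) ≤ ⊥ := hbot ▸ evKer_insert_le H h S v
    rw [le_bot_iff] at hle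
    rw [hle, finrank_bot]
    exact Nat.zero_le _
  · obtain ⟨c, hcW, hc0⟩ := (Submodule.ne_bot_iff _).mp hbot
    set f : F := ∑ a, c a • h a with hf
    have hf0 : f ≠ 0 := by
      intro h0
      apply hc0
      have := (Fintype.linearIndependent_iff.mp hli) c h0
      exact funext this
    have hfin : (↑S ∪ Bad ∪ (⋃ a, {v : Place K F | v.ord (h a) < 0}) ∪
        {v : Place K F | v.ord f ≠ 0}).Finite :=
      ((S.finite_toSet.union hBad).union hpoles).union (finite_ord_ne_zero H hf0)
    obtain ⟨v, hv⟩ := hfin.infinite_compl.nonempty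
    simp only [Set.mem_compl_iff, Set.mem_union, Finset.mem_coe, Set.mem_iUnion, Set.mem_setOf_eq,
      not_or, not_exists, not_lt, not_not] at hv
    obtain ⟨⟨⟨hvS, hvB⟩, hvreg⟩, hvf⟩ := hv
    refine ⟨v, hvS, hvB, hvreg, ?_⟩
    have hmem : ∀ a, h a ∈ v.toValuationSubring := fun a => ffp_mem_of_ord_nonneg v (hvreg a)
    have hval : valF H v f = ∑ a, c a * valF H v (h a) := by
      rw [hf, valF_sum H v _ _ (fun a _ => by
        rw [Algebra.smul_def]
        exact mul_mem (v.algebraMap_mem' _) (hmem a))]
      exact Finset.sum_congr rfl fun a _ => valF_smul H v (c a) (hmem a)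
    have hne : valF H v f ≠ 0 := valF_ne_zero_of_ord_eq_zero H v hf0 hvf
    have hlt : evKer H h (insert v S) < evKer H h S := by
      refine lt_of_le_of_ne (evKer_insert_le H h S v) ?_
      intro heq
      have hc' : c ∈ evKer H h (insert v S) := heq ▸ hcW
      exact hne (hval ▸ hc' v (Finset.mem_insert_self v S))
    have := Submodule.finrank_lt_finrank_of_lt hlt
    omega

/-- `m` generic points cut the kernel down to dimension `≤ g - m`. -/
theorem exists_finset [DecidableEq (Place K F)] [Infinite (Place K F)]
    (hli : LinearIndependent K h)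
    (Bad : Set (Place K F)) (hBad : Bad.Finite) (m : ℕ) :
    ∃ S : Finset (Place K F), S.card = m ∧ (∀ v ∈ S, v ∉ Bad) ∧
      (∀ v ∈ S, ∀ a, 0 ≤ v.ord (h a)) ∧ Module.finrank K (evKer H h S) ≤ g - m := by
  induction m with
  | zero =>
    refine ⟨∅, rfl, by simp, by simp, ?_⟩
    calc Module.finrank K (evKer H h ∅) ≤ Module.finrank K (Fin g → K) :=
          Submodule.finrank_le _
      _ = g - 0 := by simp
  | succ m ih =>
    obtain ⟨S, hcard, hB, hreg, hrank⟩ := ih
    obtain ⟨v, hvS, hvB, hvreg, hstep⟩ := exists_step H h hli Bad hBad S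
    refine ⟨insert v S, by rw [Finset.card_insert_of_notMem hvS, hcard], ?_, ?_, by omega⟩
    · intro w hw
      rcases Finset.mem_insert.mp hw with rfl | hw
      · exact hvB
      · exact hB w hw
    · intro w hw
      rcases Finset.mem_insert.mp hw with rfl | hw
      · exact hvreg
      · exact hreg w hw

/-- **General position.** -/
theorem exists_genpos [Infinite (Place K F)] (hli : LinearIndependent K h)
    (Bad : Set (Place K F)) (hBad : Bad.Finite) :
    ∃ P : Fin g → Place K F, Function.Injective P ∧ (∀ i, P i ∉ Bad) ∧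
      (∀ i a, 0 ≤ (P i).ord (h a)) ∧
      (Matrix.of fun i a => valF H (P i) (h a)).det ≠ 0 := by
  classical
  obtain ⟨S, hcard, hB, hreg, hrank⟩ := exists_finset H h hli Bad hBad g
  have hbot : evKer H h S = ⊥ := by
    have h0 : Module.finrank K (evKer H h S) = 0 := by omega
    exact Submodule.finrank_eq_zero.mp h0
  let e : Fin g ≃ S := (S.equivFinOfCardEq hcard).symm
  refine ⟨fun i => (e i : Place K F), ?_, fun i => hB _ (e i).2, fun i a => hreg _ (e i).2 a, ?_⟩
  · intro i j hij
    exact e.injective (Subtype.ext hij)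
  · intro hdet
    obtain ⟨c, hc0, hc⟩ := Matrix.exists_mulVec_eq_zero_iff.mpr hdet
    apply hc0
    have hmem : c ∈ evKer H h S := by
      intro v hv
      have := congrFun hc (e.symm ⟨v, hv⟩)
      simp only [Matrix.mulVec, dotProduct, Matrix.of_apply, Equiv.apply_symm_apply,
        Pi.zero_apply] at this
      rw [← this]
      exact Finset.sum_congr rfl fun a _ => mul_comm _ _
    rw [hbot, Submodule.mem_bot] at hmem
    exact hmem

end Main

/-- Left-kernel form of `det ≠ 0`. -/
theorem eq_zero_of_vecMul {g : ℕ} {M : Matrix (Fin g) (Fin g) K} (hM : M.det ≠ 0)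
    {c : Fin g → K} (hc : ∀ a, ∑ i, c i * M i a = 0) : c = 0 := by
  by_contra hc0
  exact hM (Matrix.exists_vecMul_eq_zero_iff.mp ⟨c, hc0, funext fun a => by
    simpa [Matrix.vecMul, dotProduct] using hc a⟩)

/-- Right-kernel form of `det ≠ 0`. -/
theorem eq_zero_of_mulVec {g : ℕ} {M : Matrix (Fin g) (Fin g) K} (hM : M.det ≠ 0)
    {c : Fin g → K} (hc : ∀ i, ∑ a, M i a * c a = 0) : c = 0 := by
  by_contra hc0
  exact hM (Matrix.exists_mulVec_eq_zero_iff.mp ⟨c, hc0, funext fun i => by
    simpa [Matrix.mulVec, dotProduct] using hc i⟩)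

end Fermat.Agent.FF.NS.GenPos9
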