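/-
PROGRAMME FF (S19), chapter NS (helper9).  `Orth9` = (ORTH): REDUCTION OF FINITE-DIMENSIONAL SPACES
OF FUNCTIONS, abstractly over `RedDatum7.RedDatum` (no expansions, no completeness, no discreteness
of the valuation): echelon induction by evaluation at one point of a generic residue disc, using only
(D0) `Disc7.valF_mem` and (D0') `Disc7.res_valF`.

* `linearIndependent_coe_of_red` : integral functions with `k`-independent reductions are
  `L`-independent;
* `exists_red_indep`  : a finite-dimensional `L`-subspace `V ⊂ F` contains `finrank V` integral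
  functions with `k`-linearly independent reductions;
* `finrank_le_of_red_mem` : SEMICONTINUITY, abstract form: if `red (V ∩ G) ⊂ W` then
  `dim_L V ≤ dim_k W`;
* `red_mem_L` / `finrank_L_le` : SEMICONTINUITY for Riemann-Roch spaces:
  `dim_L L(E) ≤ dim_k L(r_* E)`.
-/
import Mathlib
import Fermat.Agent.FF.NS.Gauss9
import Fermat.Agent.FF.NS.GenPos9

set_option autoImplicit false
set_option linter.unusedSectionVars false

namespace Fermat.Agent.FF.NS.Orth9

open AlgebraicCurve Fermat.Agent.X0.FF Fermat.Agent.RR.LSpace Fermat.Agent.MW.EMB.Value6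
open Fermat.Agent.FF.RED.RedDatum7 Fermat.Agent.FF.RED.Disc7 Fermat.Agent.FF.NS.Gauss9
open Fermat.Agent.FF.NS.GenPos9

noncomputable section

variable {L F k Ft : Type*} [Field L] [Field F] [Algebra L F] [Field k] [Field Ft] [Algebra k Ft]
variable (D : RedDatum L F k Ft)

/-! ### pole-free functions form a subspace -/

/-- The `L`-subspace of functions without poles on the fibre of `Q`. -/
def poleFreeSub (Q : Place k Ft) : Submodule L F where
  carrier := {s | D.PoleFree s Q}
  add_mem' := fun hs ht => poleFree_add D hs ht
  zero_mem' := by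
    have := poleFree_const D (0 : L) Q
    rwa [map_zero] at this
  smul_mem' := fun c s hs => by
    show D.PoleFree (c • s) Q
    rw [Algebra.smul_def]
    exact poleFree_mul D (poleFree_const D c Q) hs

theorem mem_poleFreeSub {Q : Place k Ft} {s : F} : s ∈ poleFreeSub D Q ↔ D.PoleFree s Q := Iff.rfl

/-- The fibres on which `s` has a pole are finite in number. -/
theorem finite_not_poleFree (s : F) : {Q : Place k Ft | ¬ D.PoleFree s Q}.Finite := by
  refine ((finite_ord_neg D.HL s).image D.r).subset ?_
  intro Q hQ
  simp only [Set.mem_setOf_eq, RedDatum.PoleFree, not_forall, not_le] at hQ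
  obtain ⟨P, hP, hneg⟩ := hQ
  exact ⟨P, hneg, hP⟩

include D in
/-- The reduced function field is not constant. -/
theorem exists_nonconstant : ∃ x : Ft, ∀ c : k, x ≠ algebraMap k Ft c := by
  obtain ⟨P⟩ := D.HL.nonempty
  obtain ⟨u, hu⟩ := exists_isGoodUnif D P
  refine ⟨D.red u, fun c hc => ?_⟩
  have h1 := hu.ord_red
  rw [hc, ffp_ord_algebraMap] at h1
  exact zero_ne_one h1

include D in
theorem infinite_place_red [Infinite k] : Infinite (Place k Ft) := by
  obtain ⟨x, hx⟩ := exists_nonconstant D
  exact infinite_place D.Hk hx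

/-! ### independence upstairs from independence downstairs -/

/-- Integral functions with `k`-linearly independent reductions are `L`-linearly independent. -/
theorem linearIndependent_coe_of_red {ι : Type*} (v : ι → D.G)
    (h : LinearIndependent k (fun i => D.red (v i))) :
    LinearIndependent L (fun i => ((v i : D.G) : F)) := by
  classical
  rw [linearIndependent_iff']
  intro s a hsum i hi
  by_contra hai
  obtain ⟨i₀, hi₀, hi₀0, hdiv⟩ := exists_pivot D.A s a ⟨i, hi, hai⟩
  let b : ι → D.A := fun j => if hj : a j / a i₀ ∈ D.A then ⟨a j / a i₀, hj⟩ else 0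
  have hb : ∀ j ∈ s, ((b j : D.A) : L) = a j / a i₀ := by
    intro j hj
    simp only [b, dif_pos (hdiv j hj)]
  have hsumG : ∑ j ∈ s, D.const (b j) * v j = 0 := by
    apply Subtype.ext
    rw [Subring.coe_zero]
    have h1 : ((∑ j ∈ s, D.const (b j) * v j : D.G) : F) =
        ∑ j ∈ s, algebraMap L F (a j / a i₀) * (v j : F) := by
      rw [← Subring.subtype_apply, map_sum]
      refine Finset.sum_congr rfl fun j hj => ?_
      rw [Subring.subtype_apply, Subring.coe_mul, RedDatum.coe_const, hb j hj]
    rw [h1]
    have h2 : ∑ j ∈ s, algebraMap L F (a j / a i₀) * (v j : F) =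
        algebraMap L F (a i₀)⁻¹ * ∑ j ∈ s, a j • (v j : F) := by
      rw [Finset.mul_sum]
      refine Finset.sum_congr rfl fun j _ => ?_
      rw [Algebra.smul_def, ← mul_assoc, ← map_mul, div_eq_inv_mul]
    rw [h2, hsum, mul_zero]
  have hred := congrArg D.red hsumG
  rw [map_sum, map_zero] at hred
  have hred' : ∑ j ∈ s, D.res (b j) • D.red (v j) = 0 := by
    rw [← hred]
    refine Finset.sum_congr rfl fun j _ => ?_
    rw [map_mul, D.red_const', Algebra.smul_def]
  have h0 := (linearIndependent_iff'.mp h) s (fun j => D.res (b j)) hred' i₀ hi₀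
  have hb1 : b i₀ = 1 := by
    apply Subtype.ext
    rw [hb i₀ hi₀, div_self hi₀0]
    rfl
  rw [hb1, map_one] at h0
  exact one_ne_zero h0

/-! ### the echelon induction -/

/-- Evaluation at `P` on a subspace of functions regular at `P`. -/
def evalOn (P : Place L F) (V : Submodule L F) (hV : ∀ y ∈ V, y ∈ P.toValuationSubring) :
    V →ₗ[L] L where
  toFun y := valF D.HL P (y : F)
  map_add' y z := valF_add D.HL P (hV y y.2) (hV z z.2)
  map_smul' c y := by
    simp only [RingHom.id_apply]
    show valF D.HL P (c • (y : F)) = c • valF D.HL P (y : F)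
    rw [valF_smul D.HL P c (hV y y.2), smul_eq_mul]

theorem exists_red_indep_aux [Infinite k] : ∀ (n : ℕ) (V : Submodule L F),
    FiniteDimensional L V → Module.finrank L V = n →
    ∃ v : Fin n → D.G, (∀ i, ((v i : D.G) : F) ∈ V) ∧
      LinearIndependent k (fun i => D.red (v i)) := by
  classical
  haveI := infinite_place_red D
  intro n
  induction n with
  | zero =>
    intro V _ _
    exact ⟨Fin.elim0, fun i => i.elim0, linearIndependent_empty_type⟩
  | succ n ih =>
    intro V hfd hrank
    haveI := hfd
    -- a nonzero element of `V`, normalised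
    have hVne : V ≠ ⊥ := by
      intro h0
      rw [h0, finrank_bot] at hrank
      omega
    obtain ⟨y, hyV, hy0⟩ := (Submodule.ne_bot_iff V).mp hVne
    obtain ⟨c, hc0, g, hyg, hredg⟩ := exists_normal D hy0
    have hgV : (g : F) ∈ V := by
      have : (g : F) = c⁻¹ • y := by
        rw [hyg, Algebra.smul_def, ← mul_assoc, ← map_mul, inv_mul_cancel₀ hc0, map_one, one_mul]
      rw [this]
      exact V.smul_mem _ hyV
    -- a generic fibre
    let b := Module.finBasis L V
    have hbad : ((⋃ i, {Q : Place k Ft | ¬ D.PoleFree ((b i : V) : F) Q}) ∪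
        {Q : Place k Ft | Q.ord (D.red g) ≠ 0}).Finite :=
      (Set.finite_iUnion fun i => finite_not_poleFree D _).union (finite_ord_ne_zero D.Hk hredg)
    obtain ⟨Q, hQ⟩ := hbad.infinite_compl.nonempty
    simp only [Set.mem_compl_iff, Set.mem_union, Set.mem_iUnion, Set.mem_setOf_eq, not_or,
      not_exists, not_not] at hQ
    obtain ⟨hQb, hQg⟩ := hQ
    obtain ⟨P, hP⟩ := D.r_surj Q
    -- all of `V` is pole-free on the fibre of `Q`
    have hVpf : V ≤ poleFreeSub D Q := by
      have hspan : Submodule.span L (Set.range fun i => ((b i : V) : F)) = V := by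
        have h1 := b.span_eq
        have h2 := congrArg (Submodule.map V.subtype) h1
        rw [Submodule.map_span, Submodule.map_top, Submodule.range_subtype, ← Set.range_comp] at h2
        exact h2
      rw [← hspan, Submodule.span_le]
      rintro _ ⟨i, rfl⟩
      exact hQb i
    have hVmem : ∀ y ∈ V, y ∈ P.toValuationSubring := fun y hy =>
      poleFree_mem D (hVpf hy) hP
    let ev := evalOn D P V hVmem
    -- the value of `g` at `P` is a unit
    have hgpf : D.PoleFree (g : F) Q := hVpf hgV
    have hvalg : valF D.HL P (g : F) ≠ 0 := by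
      intro h0
      have h1 := res_valF D g hgpf hP
      have h2 : valA D g hgpf hP = 0 := Subtype.ext h0
      rw [h2, map_zero] at h1
      exact valF_ne_zero_of_ord_eq_zero D.Hk Q hredg hQg h1.symm
    -- the kernel of the evaluation
    have hsurj : LinearMap.range ev = ⊤ := by
      rw [LinearMap.range_eq_top]
      intro a
      refine ⟨(a / valF D.HL P (g : F)) • ⟨(g : F), hgV⟩, ?_⟩
      rw [map_smul]
      show (a / valF D.HL P (g : F)) • valF D.HL P (g : F) = a
      rw [smul_eq_mul, div_mul_cancel₀ a hvalg]
    have hker : Module.finrank L (LinearMap.ker ev) = n := by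
      have h1 := LinearMap.finrank_range_add_finrank_ker ev
      rw [hsurj, finrank_top, Module.finrank_self, hrank] at h1
      omega
    let V₁ : Submodule L F := (LinearMap.ker ev).map V.subtype
    have hV₁rank : Module.finrank L V₁ = n := by
      rw [← hker]
      exact (Submodule.equivMapOfInjective V.subtype V.injective_subtype _).finrank_eq.symm
    have hV₁le : V₁ ≤ V := by
      rintro _ ⟨y, _, rfl⟩
      exact y.2
    have hV₁val : ∀ y ∈ V₁, valF D.HL P y = 0 := by
      rintro _ ⟨y, hy, rfl⟩
      exact hy
    have hV₁fd : FiniteDimensional L V₁ := Submodule.finiteDimensional_of_le hV₁le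
    obtain ⟨v', hv'mem, hv'li⟩ := ih V₁ hV₁fd hV₁rank
    refine ⟨Fin.cons g v', ?_, ?_⟩
    · intro i
      refine Fin.cases ?_ (fun j => ?_) i
      · simpa using hgV
      · simpa using hV₁le (hv'mem j)
    · have hcomp : (fun i => D.red ((Fin.cons g v' : Fin (n + 1) → D.G) i)) =
          Fin.cons (D.red g) (fun j => D.red (v' j)) := by
        funext i
        refine Fin.cases ?_ (fun j => ?_) i <;> simp
      rw [hcomp, linearIndependent_fin_cons]
      refine ⟨hv'li, fun hmem => ?_⟩
      obtain ⟨γ, hγ⟩ := (Submodule.mem_span_range_iff_exists_fun k).mp hmem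
      -- evaluate at `Q`
      have hreg : ∀ j, D.red (v' j) ∈ Q.toValuationSubring := fun j =>
        ffp_mem_of_ord_nonneg Q
          (D.ord_red_nonneg (hv'li.ne_zero j) (hVpf (hV₁le (hv'mem j))))
      have hval0 : ∀ j, valF D.Hk Q (D.red (v' j)) = 0 := by
        intro j
        have hpf := hVpf (hV₁le (hv'mem j))
        rw [← res_valF D (v' j) hpf hP]
        have : valA D (v' j) hpf hP = 0 := Subtype.ext (hV₁val _ (hv'mem j))
        rw [this, map_zero]
      have h1 : valF D.Hk Q (D.red g) = 0 := by
        rw [← hγ, valF_sum D.Hk Q _ _ (fun j _ => by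
          rw [Algebra.smul_def]
          exact mul_mem (Q.algebraMap_mem' _) (hreg j))]
        refine Finset.sum_eq_zero fun j _ => ?_
        rw [valF_smul D.Hk Q _ (hreg j), hval0 j, mul_zero]
      exact valF_ne_zero_of_ord_eq_zero D.Hk Q hredg hQg h1

/-- **(ORTH)** A finite-dimensional space of functions contains `dim` integral functions with
linearly independent reductions. -/
theorem exists_red_indep [Infinite k] (V : Submodule L F) [FiniteDimensional L V] :
    ∃ v : Fin (Module.finrank L V) → D.G, (∀ i, ((v i : D.G) : F) ∈ V) ∧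
      LinearIndependent k (fun i => D.red (v i)) :=
  exists_red_indep_aux D _ V inferInstance rfl

/-- **Semicontinuity**, abstract form. -/
theorem finrank_le_of_red_mem [Infinite k] (V : Submodule L F) [FiniteDimensional L V]
    (W : Submodule k Ft) [FiniteDimensional k W]
    (h : ∀ g : D.G, (g : F) ∈ V → D.red g ∈ W) :
    Module.finrank L V ≤ Module.finrank k W := by
  obtain ⟨v, hv, hli⟩ := exists_red_indep D V
  let w : Fin (Module.finrank L V) → W := fun i => ⟨D.red (v i), h (v i) (hv i)⟩
  have hw : LinearIndependent k w := by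
    apply LinearIndependent.of_comp W.subtype
    exact hli
  have := hw.fintype_card_le_finrank
  simpa using this

/-! ### Riemann-Roch spaces -/

/-- The reduction of an integral function of `L(E)` lies in `L(r_* E)`. -/
theorem red_mem_L (E : Divisor L F) {g : D.G} (hg : (g : F) ∈ riemannRochSpace E) :
    D.red g ∈ riemannRochSpace (Finsupp.mapDomain D.r E) := by
  classical
  by_cases hred : D.red g = 0
  · rw [hred]
    exact Submodule.zero_mem _
  have hg0 : (g : F) ≠ 0 := D.coe_ne_zero_of_red_ne_zero hred
  rw [mem_L_iff hred]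
  intro Q
  have hcompat := D.compat g hred (divOf D.HL hg0) (fun P => divOf_apply D.HL hg0 P) Q
  rw [← hcompat]
  have hpos : 0 ≤ divOf D.HL hg0 + E := by
    intro P
    have := (mem_L_iff hg0).mp hg P
    simp only [Finsupp.coe_zero, Pi.zero_apply, Finsupp.coe_add, Pi.add_apply, divOf_apply]
    omega
  have h2 : 0 ≤ Finsupp.mapDomain D.r (divOf D.HL hg0 + E) Q := by
    rw [RedDatum.mapDomain_apply_eq_sum]
    exact Finset.sum_nonneg fun P _ => hpos P
  rw [Finsupp.mapDomain_add, Finsupp.add_apply] at h2
  omega

/-- **Semicontinuity** `l(E) ≤ l(r_* E)`. -/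
theorem finrank_L_le [Infinite k] (E : Divisor L F) :
    Module.finrank L (riemannRochSpace E) ≤
      Module.finrank k (riemannRochSpace (Finsupp.mapDomain D.r E)) := by
  haveI := finiteDimensional_L D.HL E
  haveI := finiteDimensional_L D.Hk (Finsupp.mapDomain D.r E)
  exact finrank_le_of_red_mem D _ _ fun g hg => red_mem_L D E hg

end

end Fermat.Agent.FF.NS.Orth9
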