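/-
PROGRAMME FF (S19), chapter NS (helper9).  `DiffVal9` = the DIFFERENTIAL QUOTIENT `ds/du` of a
function field in one variable over an algebraically closed field of characteristic zero, and its
values: if `u − c` is a uniformizer at `v` and `s` is regular at `v`, then `ds/du` is regular at `v`
and its value at `v` is the value of the divided difference `(s − s(v)) / (u − c)`.

* `dq L s u` : the coefficient of `D s` with respect to `D u`; `dq_spec`, `dq_unique`, `dq_self`,
  `dq_sub_const`, `dq_mul_dq`;
* `ordDifferential_D_of_unif` : `ord_v (du) = 0` if `u − c` is a uniformizer at `v`;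
* `dq_mem` : `ds/du` is regular at `v`;
* `valF_dq` : `(ds/du)(v) = ((s − s(v)) / (u − c))(v)`.
-/
import Mathlib
import Fermat.Agent.X0.FFDiff
import Fermat.Agent.RR.LHypGen
import Fermat.Agent.MW.EMB.Value6

set_option autoImplicit false
set_option linter.unusedSectionVars false
set_option linter.style.haveILetI false

namespace Fermat.Agent.FF.NS.DiffVal9

open AlgebraicCurve KaehlerDifferential Fermat.Agent.X0.FF Fermat.Agent.RR.LSpace
  Fermat.Agent.MW.EMB.Value6 Fermat.Agent.RR.LHypGen

noncomputable section

variable (L : Type*) {F : Type*} [Field L] [Field F] [Algebra L F]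

/-- The coefficient of `ω` with respect to `η` (`0` if there is none). -/
def coeffOn (ω η : Ω[F⁄L]) : F := by
  classical
  exact if h : ∃ z : F, ω = z • η then h.choose else 0

/-- The differential quotient `ds/du`: the coefficient of `D s` with respect to `D u`
(`0` if there is none). -/
def dq (s u : F) : F := coeffOn L (D L F s) (D L F u)

variable {L}
variable [IsAlgClosed L] [CharZero L] {x : F}

theorem span_D_of_transcendental (hx : IsGen L x) {u : F} (hu : Transcendental L u) :
    Submodule.span F {D L F u} = ⊤ :=
  ffd_span_D u hu (ffx_isAlgebraic_of_transcendental x u (ffg_isAlgebraic hx) hu)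

theorem D_ne_zero_of_transcendental (hx : IsGen L x) {u : F} (hu : Transcendental L u) :
    D L F u ≠ 0 :=
  ffd_D_ne_zero u hu (ffx_isAlgebraic_of_transcendental x u (ffg_isAlgebraic hx) hu)

theorem dq_spec (hx : IsGen L x) {u : F} (hu : Transcendental L u) (s : F) :
    D L F s = dq L s u • D L F u := by
  classical
  have hex : ∃ z : F, D L F s = z • D L F u := by
    have h : D L F s ∈ Submodule.span F {D L F u} := by
      rw [span_D_of_transcendental hx hu]; trivial
    obtain ⟨z, hz⟩ := Submodule.mem_span_singleton.mp h
    exact ⟨z, hz.symm⟩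
  unfold dq coeffOn
  rw [dif_pos hex]
  exact hex.choose_spec

theorem dq_unique (hx : IsGen L x) {u : F} (hu : Transcendental L u) {s z : F}
    (h : D L F s = z • D L F u) : dq L s u = z := by
  have h1 := dq_spec hx hu s
  rw [h] at h1
  have h2 : (z - dq L s u) • D L F u = 0 := by rw [sub_smul, ← h1, sub_self]
  rcases smul_eq_zero.mp h2 with h3 | h3
  · exact (sub_eq_zero.mp h3).symm
  · exact absurd h3 (D_ne_zero_of_transcendental hx hu)

theorem dq_self (hx : IsGen L x) {u : F} (hu : Transcendental L u) : dq L u u = 1 :=
  dq_unique hx hu (one_smul F _).symm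

/-- chain rule. -/
theorem dq_mul_dq (hx : IsGen L x) {u w : F} (hu : Transcendental L u) (hw : Transcendental L w)
    (s : F) : dq L s w * dq L w u = dq L s u := by
  symm
  apply dq_unique hx hu
  rw [mul_smul, ← dq_spec hx hu w, ← dq_spec hx hw s]

theorem D_sub_const (u : F) (c : L) : D L F (u - algebraMap L F c) = D L F u := by
  rw [map_sub, Derivation.map_algebraMap, sub_zero]

theorem dq_sub_const_right (s u : F) (c : L) : dq L s (u - algebraMap L F c) = dq L s u := by
  unfold dq
  rw [D_sub_const]

theorem dq_sub_const_left (s u : F) (c : L) : dq L (s - algebraMap L F c) u = dq L s u := by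
  unfold dq
  rw [D_sub_const]

theorem transcendental_of_ord_sub (v : Place L F) {u : F} {c : L}
    (h : v.ord (u - algebraMap L F c) ≠ 0) : Transcendental L u := by
  have h1 : Transcendental L (u - algebraMap L F c) := ffp_transcendental_of_ord_ne_zero v h
  intro halg
  exact h1 (halg.sub (isAlgebraic_algebraMap c))

/-- `ord_v (du) = 0` if `u − c` is a uniformizer at `v`. -/
theorem ordDifferential_D_of_unif (hx : IsGen L x) (v : Place L F) {u : F} {c : L}
    (h : v.ord (u - algebraMap L F c) = 1) : v.ordDifferential (D L F u) = 0 := by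
  rw [← D_sub_const u c, ordDifferential_D_of_ord_ne_zero hx v (by rw [h]; exact one_ne_zero), h]
  ring

/-- If `ord_v (du) = 0` and `ρ` is regular at `v`, then `dρ/du` is regular at `v`. -/
theorem dq_mem_of_ordDifferential (hx : IsGen L x) (v : Place L F) {u : F}
    (hu : Transcendental L u) (hord : v.ordDifferential (D L F u) = 0) {ρ : F}
    (hρ : ρ ∈ v.toValuationSubring) : dq L ρ u ∈ v.toValuationSubring := by
  haveI := dCoordGenerates hx v
  haveI := nontrivial_kaehler hx
  set δ : F := v.differentialCoeff (D L F ρ) with hδ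
  set ε : F := v.differentialCoeff (D L F u) with hε
  have hδmem : δ ∈ v.toValuationSubring := differentialCoeff_D_mem hx v hρ
  have hε0 : ε ≠ 0 := ffg_differentialCoeff_ne_zero hx v (D_ne_zero_of_transcendental hx hu)
  have hεord : v.ord ε = 0 := hord
  have h1 : D L F ρ = δ • v.dCoord := (v.differentialCoeff_smul_dCoord _).symm
  have h2 : D L F u = ε • v.dCoord := (v.differentialCoeff_smul_dCoord _).symm
  have h3 : D L F ρ = (δ * ε⁻¹) • D L F u := by
    rw [h2, smul_smul, mul_assoc, inv_mul_cancel₀ hε0, mul_one, ← h1]
  rw [dq_unique hx hu h3]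
  rcases eq_or_ne δ 0 with h0 | h0
  · rw [h0, zero_mul]; exact zero_mem _
  · apply ffp_mem_of_ord_nonneg
    rw [v.ord_mul h0 (inv_ne_zero hε0), v.ord_inv, hεord]
    have := ffp_ord_nonneg_of_mem v hδmem
    omega

section Value

variable (hx : IsGen L x) (v : Place L F) {u : F} {c : L}
  (hu : v.ord (u - algebraMap L F c) = 1) {s : F} (hs : s ∈ v.toValuationSubring)

include hu hs in
/-- The divided difference `(s − s(v)) / (u − c)` is regular at `v`. -/
theorem ddiff_mem (H : LHyp L F) :
    (s - algebraMap L F (valF H v s)) * (u - algebraMap L F c)⁻¹ ∈ v.toValuationSubring := by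
  set t : F := u - algebraMap L F c with ht
  have ht0 : t ≠ 0 := by
    intro h0
    rw [h0, Place.ord_zero] at hu
    exact zero_ne_one hu
  set s₁ : F := s - algebraMap L F (valF H v s) with hs₁
  rcases eq_or_ne s₁ 0 with h0 | h0
  · rw [h0, zero_mul]; exact zero_mem _
  apply ffp_mem_of_ord_nonneg
  rw [v.ord_mul h0 (inv_ne_zero ht0), v.ord_inv, hu]
  have hpos : 0 < v.ord s₁ :=
    ord_sub_valF_pos H v hs (fun h => h0 (by rw [hs₁, ← h, sub_self]))
  omega

include hx hu hs in
/-- `ds/du = ρ + (u − c) · dρ/du` with `ρ = (s − s(v)) / (u − c)`. -/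
theorem dq_eq (H : LHyp L F) :
    dq L s u = (s - algebraMap L F (valF H v s)) * (u - algebraMap L F c)⁻¹ +
      (u - algebraMap L F c) *
        dq L ((s - algebraMap L F (valF H v s)) * (u - algebraMap L F c)⁻¹) u := by
  set t : F := u - algebraMap L F c with ht
  have ht0 : t ≠ 0 := by
    intro h0
    rw [h0, Place.ord_zero] at hu
    exact zero_ne_one hu
  have hutr : Transcendental L u :=
    transcendental_of_ord_sub v (c := c) (by rw [← ht, hu]; exact one_ne_zero)
  set ρ : F := (s - algebraMap L F (valF H v s)) * t⁻¹ with hρ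
  have hsdec : s = algebraMap L F (valF H v s) + t * ρ := by
    rw [hρ, mul_comm t, mul_assoc, inv_mul_cancel₀ ht0, mul_one]; ring
  apply dq_unique hx hutr
  have hDt : D L F t = D L F u := D_sub_const u c
  conv_lhs => rw [hsdec]
  rw [map_add, Derivation.map_algebraMap, zero_add, Derivation.leibniz, hDt,
    dq_spec hx hutr ρ, smul_smul, ← add_smul, add_comm]

include hx hu hs in
/-- `ds/du` is regular at `v`. -/
theorem dq_mem (H : LHyp L F) : dq L s u ∈ v.toValuationSubring := by
  have hutr : Transcendental L u :=
    transcendental_of_ord_sub v (c := c) (by rw [hu]; exact one_ne_zero)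
  exact dq_mem_of_ordDifferential hx v hutr (ordDifferential_D_of_unif hx v hu) hs

include hx hu hs in
/-- **The value of `ds/du` at `v`** is the value of the divided difference. -/
theorem valF_dq (H : LHyp L F) :
    valF H v (dq L s u) =
      valF H v ((s - algebraMap L F (valF H v s)) * (u - algebraMap L F c)⁻¹) := by
  have hutr : Transcendental L u :=
    transcendental_of_ord_sub v (c := c) (by rw [hu]; exact one_ne_zero)
  have hρmem := ddiff_mem v hu hs H
  have hdρ : dq L ((s - algebraMap L F (valF H v s)) * (u - algebraMap L F c)⁻¹) u ∈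
      v.toValuationSubring :=
    dq_mem_of_ordDifferential hx v hutr (ordDifferential_D_of_unif hx v hu) hρmem
  have htmem : u - algebraMap L F c ∈ v.toValuationSubring :=
    ffp_mem_of_ord_nonneg v (by rw [hu]; exact zero_le_one)
  have htval : valF H v (u - algebraMap L F c) = 0 := by
    rw [valF_eq_zero_iff H v htmem]
    right
    rw [hu]; exact zero_lt_one
  rw [dq_eq hx v hu hs H, valF_add H v hρmem (mul_mem htmem hdρ), valF_mul H v htmem hdρ, htval,
    zero_mul, add_zero]

end Value

end

end Fermat.Agent.FF.NS.DiffVal9
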