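/-
PROGRAMME FF (S19), chapter NS (helper9).  `MaxMod9` = the MAXIMUM MODULUS PRINCIPLE on a residue
disc, abstractly over `RedDatum7.RedDatum`:

* `IsGoodUnif.recenter` : if `u` is a good uniformizer centred at `P` and `P'` lies in the same
  disc, then `u − u(P')` is a good uniformizer centred at `P'`;
* `quot`, `coe_quot`, `poleFree_quot`, `eq_add_mul_quot` : for `s` integral and pole-free on the
  disc of `P`, the divided difference `(s − s(P)) / u` is again integral and pole-free on the disc;
* `mem_G_of_valF_mem` : **maximum modulus**: a function without poles on a disc all of whose values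
  on the disc lie in `A` is integral (lies in the Gauss ring).  Needs square roots in `L`
  (`L` algebraically closed), i.e. a value group without smallest positive element.
-/
import Mathlib
import Fermat.Agent.FF.NS.Gauss9

set_option autoImplicit false
set_option linter.unusedSectionVars false

namespace Fermat.Agent.FF.NS.MaxMod9

open AlgebraicCurve Fermat.Agent.X0.FF Fermat.Agent.RR.LSpace Fermat.Agent.MW.EMB.Value6
open Fermat.Agent.FF.RED.RedDatum7 Fermat.Agent.FF.RED.Disc7 Fermat.Agent.FF.NS.Gauss9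

noncomputable section

variable {L F k Ft : Type*} [Field L] [Field F] [Algebra L F] [Field k] [Field Ft] [Algebra k Ft]
variable {D : RedDatum L F k Ft}

/-! ### re-centring a good uniformizer -/

/-- **Re-centring**: `u − u(P')` is a good uniformizer centred at `P'`, for every `P'` of the
disc of `u`. -/
theorem IsGoodUnif.recenter {P : Place L F} {u : D.G} (hu : IsGoodUnif D P u) {P' : Place L F}
    (hP' : D.r P' = D.r P) :
    IsGoodUnif D P' (u - D.const (valA D u hu.poleFree hP')) := by
  set c : D.A := valA D u hu.poleFree hP' with hc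
  have hcn : ¬ IsUnit c := hu.valA_not_isUnit hP'
  have hcoe : ((u - D.const c : D.G) : F) =
      (u : F) - algebraMap L F (valF D.HL P' (u : F)) := rfl
  refine ⟨?_, ?_, ?_⟩
  · rw [hcoe]
    exact hu.ord_sub_valF hP'
  · rw [hu.red_sub_const hcn]
    exact hu.2.1
  · intro P'' hP''
    have hP''P : D.r P'' = D.r P := hP''.trans hP'
    have hnn : 0 ≤ P''.ord ((u - D.const c : D.G) : F) := hu.poleFree_sub_const c P'' hP''P
    refine ⟨hnn, fun hne => ?_⟩
    by_contra h0
    have hpos : 0 < P''.ord ((u : F) - algebraMap L F (c : L)) := by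
      have : ((u - D.const c : D.G) : F) = (u : F) - algebraMap L F (c : L) := rfl
      rw [← this]
      omega
    have hval : valF D.HL P'' (u : F) = (c : L) :=
      valF_unique D.HL P'' (poleFree_mem D hu.poleFree hP''P) _ (Or.inr hpos)
    exact hne (hu.eq_of_valF_eq hP''P hP' hval)

/-! ### the divided difference at the centre -/

section Quot

variable {P : Place L F} {u : D.G} (hu : IsGoodUnif D P u) (s : D.G)
  (hpf : D.PoleFree (s : F) (D.r P))

/-- `(s − s(P)) / u` as an element of the Gauss ring. -/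
def quot : D.G := (s - D.const (valA D s hpf rfl)) * invG D u hu.2.1

theorem coe_quot : ((quot hu s hpf : D.G) : F) =
    ((s : F) - algebraMap L F (valF D.HL P (s : F))) * (u : F)⁻¹ := rfl

/-- `s = s(P) + u · quot`. -/
theorem eq_add_mul_quot : s = D.const (valA D s hpf rfl) + u * quot hu s hpf := by
  have h := mul_invG D u hu.2.1
  unfold quot
  calc s = D.const (valA D s hpf rfl) + (s - D.const (valA D s hpf rfl)) * 1 := by ring
    _ = D.const (valA D s hpf rfl) + (s - D.const (valA D s hpf rfl)) * (u * invG D u hu.2.1) := by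
        rw [h]
    _ = _ := by ring

theorem poleFree_quot : D.PoleFree ((quot hu s hpf : D.G) : F) (D.r P) := by
  intro P' hP'
  rw [coe_quot]
  set s₁ : F := (s : F) - algebraMap L F (valF D.HL P (s : F)) with hs₁
  have hu0 : (u : F) ≠ 0 := D.coe_ne_zero_of_red_ne_zero hu.2.1
  rcases eq_or_ne s₁ 0 with h0 | h0
  · rw [h0, zero_mul, Place.ord_zero]
  rw [P'.ord_mul h0 (inv_ne_zero hu0), P'.ord_inv]
  have hs₁nn : 0 ≤ P'.ord s₁ :=
    poleFree_sub D hpf (poleFree_const D _ _) P' hP'
  by_cases hPP : P' = P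
  · subst hPP
    have hpos : 0 < P'.ord s₁ :=
      ord_sub_valF_pos D.HL P' (poleFree_mem D hpf rfl) (fun h => h0 (by rw [hs₁, ← h, sub_self]))
    rw [hu.1]
    omega
  · rw [(hu.2.2 P' hP').2 hPP]
    omega

/-- The value of the divided difference at the centre is again in `A`. -/
theorem valF_quot_mem : valF D.HL P ((quot hu s hpf : D.G) : F) ∈ D.A :=
  valF_mem D (quot hu s hpf) (poleFree_quot hu s hpf) rfl

end Quot

/-! ### maximum modulus -/

/-- **Maximum modulus principle** on the disc over `Q`: a function without poles on the disc,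
all of whose values there are in `A`, is integral. -/
theorem mem_G_of_valF_mem (hsqrt : ∀ c : L, ∃ b : L, b * b = c) {y : F} {Q : Place k Ft}
    (hpf : D.PoleFree y Q) (hval : ∀ P : Place L F, D.r P = Q → valF D.HL P y ∈ D.A) :
    y ∈ D.G := by
  rcases eq_or_ne y 0 with rfl | hy0
  · exact D.G.zero_mem
  obtain ⟨c, hc0, g, hg, hred⟩ := D.norm y hy0
  by_cases hcinv : c⁻¹ ∈ D.A
  · have : y = algebraMap L F c⁻¹ * (g : F) := by
      rw [hg, ← mul_assoc, ← map_mul, inv_mul_cancel₀ hc0, map_one, one_mul]
    rw [this]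
    exact D.G.mul_mem (D.const_mem ⟨c⁻¹, hcinv⟩) g.2
  exfalso
  -- `c ∈ m_A`
  have hcA : c ∈ D.A := by
    have := D.A.mem_or_inv_mem c
    tauto
  -- a square root `b` of `c`, in `m_A`
  obtain ⟨b, hb⟩ := hsqrt c
  have hb0 : b ≠ 0 := by
    rintro rfl
    exact hc0 (by rw [← hb, mul_zero])
  have hbA : b ∈ D.A := by
    by_contra hbA
    have hbinv : b⁻¹ ∈ D.A := (D.A.mem_or_inv_mem b).resolve_left hbA
    apply hcinv
    have : c⁻¹ = b⁻¹ * b⁻¹ := by rw [← hb, mul_inv]
    rw [this]
    exact D.A.mul_mem _ _ hbinv hbinv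
  have hbnu : ¬ IsUnit (⟨b, hbA⟩ : D.A) := by
    intro hu
    apply hcinv
    have hbinv := inv_mem_A_of_isUnit D hu
    have : c⁻¹ = b⁻¹ * b⁻¹ := by rw [← hb, mul_inv]
    rw [this]
    exact D.A.mul_mem _ _ hbinv hbinv
  -- `g` is pole-free on the disc, with values in `c A`
  have hgpf : D.PoleFree (g : F) Q := by
    rw [hg]
    exact poleFree_mul D (poleFree_const D _ _) hpf
  have hgval : ∀ P : Place L F, D.r P = Q → valF D.HL P (g : F) = c * valF D.HL P y := by
    intro P hP
    rw [hg, valF_mul D.HL P (P.algebraMap_mem' c) (poleFree_mem D hpf hP), valF_algebraMap]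
  -- the reduction of `g` vanishes at `Q`
  obtain ⟨P₀, hP₀⟩ := D.r_surj Q
  have hnu₀ : ¬ IsUnit (valA D g hgpf hP₀) := by
    intro hu
    apply hcinv
    have h1 := inv_mem_A_of_isUnit D hu
    have h2 : ((valA D g hgpf hP₀ : D.A) : L) = c * valF D.HL P₀ y := hgval P₀ hP₀
    rw [h2, mul_inv] at h1
    have h3 : c⁻¹ = (c⁻¹ * (valF D.HL P₀ y)⁻¹) * valF D.HL P₀ y := by
      have hv0 : valF D.HL P₀ y ≠ 0 := by
        intro h0
        have : ((valA D g hgpf hP₀ : D.A) : L) = 0 := by rw [h2, h0, mul_zero]
        have h4 : valA D g hgpf hP₀ = 0 := Subtype.ext this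
        rw [h4] at hu
        exact not_isUnit_zero hu
      rw [mul_assoc, inv_mul_cancel₀ hv0, mul_one]
    rw [h3]
    exact D.A.mul_mem _ _ h1 (hval P₀ hP₀)
  have hordpos : 0 < Q.ord (D.red g) := by
    have h1 := res_valF D g hgpf hP₀
    rw [D.res_eq_zero_of_mem_maximalIdeal hnu₀] at h1
    have hmem : D.red g ∈ Q.toValuationSubring :=
      ffp_mem_of_ord_nonneg Q (D.ord_red_nonneg hred hgpf)
    rcases (valF_eq_zero_iff D.Hk Q hmem).mp h1.symm with h | h
    · exact absurd h hred
    · exact h
  -- `g` takes the value `b` on the disc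
  have hred' : D.red (g - D.const ⟨b, hbA⟩) = D.red g := by
    rw [map_sub, D.red_const', D.res_eq_zero_of_mem_maximalIdeal hbnu, map_zero, sub_zero]
  have hred'0 : D.red (g - D.const ⟨b, hbA⟩) ≠ 0 := by rw [hred']; exact hred
  obtain ⟨P', hP', hpos⟩ := D.exists_zero_of_ord_red_pos hred'0 (by rw [hred']; exact hordpos)
  have hvalb : valF D.HL P' (g : F) = b :=
    valF_unique D.HL P' (poleFree_mem D hgpf hP') b (Or.inr hpos)
  rw [hgval P' hP', ← hb] at hvalb
  -- `b * (b * a) = b` forces `b` to be a unit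
  apply hbnu
  have h1 : b * valF D.HL P' y = 1 := by
    have : b * (b * valF D.HL P' y) = b * 1 := by rw [← mul_assoc, hvalb, mul_one]
    exact mul_left_cancel₀ hb0 this
  exact IsUnit.of_mul_eq_one (⟨valF D.HL P' y, hval P' hP'⟩ : D.A) (Subtype.ext h1)

end

end Fermat.Agent.FF.NS.MaxMod9
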