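/-
PROGRAMME FF (S19), chapter NS (helper5): `NSInput5` = the interface between the two halves of (NS).

`D : RedDatum L F k Ft`.  An `NSInput D g` consists of `g` centres `P i` with good uniformizers `u i`,
pairwise distinct reductions `Q i = D.r (P i)`, and `g` regular differentials `om a` of `F / L` which
are INTEGRAL on every residue disc (`om a = psi • d u'` with `psi` in the Gauss ring, for every good
uniformizer `u'` of every place), such that the `g × g` matrix of the values at `Q i` of the
reductions of `om a / d (u i)` is nondegenerate.

* produced by: `exists_nsInput` (helper9: (ORTH) + (DLINK) + general position);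
* consumed by: `NonSpecial5.nonspecial` (helper5: residue comparison), which gives
  `L(∑ Q i) = constants` on the reduced curve.
-/
import Mathlib
import Fermat.Prelude.Def_AlgebraicCurve_CanonicalDivisor
import Fermat.Agent.FF.RED.Disc7

set_option autoImplicit false

namespace Fermat.Agent.FF.NS.NSInput5

open AlgebraicCurve KaehlerDifferential
open Fermat.Agent.MW.EMB.Value6 Fermat.Agent.FF.RED.RedDatum7 Fermat.Agent.FF.RED.Disc7

/-- The input of the residue-comparison proof of (NS). -/
structure NSInput {L F k Ft : Type*} [Field L] [Field F] [Algebra L F] [Field k] [Field Ft]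
    [Algebra k Ft] (D : RedDatum L F k Ft) (g : ℕ) where
  /-- the centres -/
  P : Fin g → Place L F
  /-- good uniformizers at the centres -/
  u : Fin g → D.G
  hu : ∀ i, IsGoodUnif D (P i) (u i)
  /-- the reductions of the centres are pairwise distinct -/
  hinj : Function.Injective fun i => D.r (P i)
  /-- the differentials -/
  om : Fin g → Ω[F⁄L]
  /-- they are regular -/
  hreg : ∀ (a : Fin g) (v : Place L F), 0 ≤ v.ordDifferential (om a)
  /-- they are integral on every residue disc, with respect to every good uniformizer -/
  hint : ∀ (a : Fin g) (P' : Place L F) (u' : D.G), IsGoodUnif D P' u' →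
    ∃ psi : D.G, om a = (psi : F) • KaehlerDifferential.D L F (u' : F)
  /-- the coefficients at the centres -/
  psi : Fin g → Fin g → D.G
  hpsi : ∀ a i, om a = (psi a i : F) • KaehlerDifferential.D L F (u i : F)
  /-- nondegeneracy of the matrix of values of the reductions -/
  nondeg : ∀ gam : Fin g → k,
    (∀ a, ∑ i, gam i * valF D.Hk (D.r (P i)) (D.red (psi a i)) = 0) → gam = 0

end Fermat.Agent.FF.NS.NSInput5
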