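/-
PROGRAMME FF (S19), chapter NS (helper9).  `NSExists9` = EXISTENCE OF THE INPUT OF (NS):
`exists_nsInput`: for a good-reduction datum `D` with a chart cover, `F / L` of characteristic zero
with Riemann-Roch (`hx : IsGen L x`), `k` infinite and a finite set `Bad` of reduced places, there is
an `NSInput5.NSInput D (genus L F)` all of whose centres reduce outside `Bad`.

Construction: ONE base disc `(P₀, u₀)` serves as global coordinate.  The `g`-dimensional space
`V = {φ : φ • d u₀ regular}` has `g` integral elements `v a` with `k`-independent reductions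
(`Orth9.exists_red_indep`); `om a := v a • d u₀`.  Integrality on every disc is (DLINK)
`Link9.dunit_of_cover`.  The centres are chosen by `GenPos9.exists_genpos` for the functions
`h a = red (v a) / red (v 0)`, off `Bad`, off the discs containing zeros of `om 0` and off the zeros
and poles of `red (v 0)`; then the value matrix is `h a (Q i) · w i` with `w i ≠ 0`.
-/
import Mathlib
import Fermat.Agent.RR.RRMain
import Fermat.Agent.FF.NS.NSInput5
import Fermat.Agent.FF.NS.Orth9
import Fermat.Agent.FF.NS.Link9

set_option autoImplicit false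
set_option linter.unusedSectionVars false
set_option linter.style.haveILetI false

namespace Fermat.Agent.FF.NS.NSExists9

open AlgebraicCurve KaehlerDifferential Fermat.Agent.X0.FF Fermat.Agent.RR.LSpace
  Fermat.Agent.MW.EMB.Value6
open Fermat.Agent.FF.RED.RedDatum7 Fermat.Agent.FF.RED.Disc7 Fermat.Agent.FF.NS.Gauss9
  Fermat.Agent.FF.NS.MaxMod9 Fermat.Agent.FF.NS.DiffVal9 Fermat.Agent.FF.NS.Link9
  Fermat.Agent.FF.NS.Orth9 Fermat.Agent.FF.NS.GenPos9 Fermat.Agent.FF.NS.NSInput5

noncomputable section

variable {L F k Ft : Type*} [Field L] [Field F] [Algebra L F] [Field k] [Field Ft] [Algebra k Ft]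
variable [IsAlgClosed L] [CharZero L] {x : F}

/-! ### the space of regular differentials in a coordinate -/

/-- `ω` is regular at every place. -/
def IsRegular (ω : Ω[F⁄L]) : Prop := ∀ v : Place L F, 0 ≤ v.ordDifferential ω

theorem isRegular_zero (hx : IsGen L x) : IsRegular (0 : Ω[F⁄L]) := by
  intro v
  haveI := dCoordGenerates hx v
  haveI := nontrivial_kaehler hx
  rw [Place.ordDifferential, v.differentialCoeff_zero, Place.ord_zero]

variable [HasCanonicalDivisor (K := L) (F := F)]

/-- The space of `φ` with `φ • d u₀` regular contains a subspace of dimension the genus (it IS of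
dimension the genus). -/
theorem exists_space (hx : IsGen L x) {u₀ : F} (hu₀ : Transcendental L u₀) :
    ∃ V : Submodule L F, FiniteDimensional L V ∧ Module.finrank L V = genus L F ∧
      ∀ φ ∈ V, IsRegular (φ • KaehlerDifferential.D L F u₀) := by
  set z₀ : F := dq L x u₀ with hz₀
  have hDx : KaehlerDifferential.D L F x = z₀ • KaehlerDifferential.D L F u₀ := dq_spec hx hu₀ x
  have hz₀0 : z₀ ≠ 0 := by
    intro h0
    apply D_ne_zero hx
    rw [hDx, h0, zero_smul]
  let Vx : Submodule L F := riemannRochSpace (canonicalDivisorOf (D_ne_zero hx))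
  haveI : FiniteDimensional L Vx := Fermat.Agent.RR.RRMain.finiteDimensional_L hx _
  let f : F →ₗ[L] F := LinearMap.mulLeft L z₀
  have hf : Function.Injective f := fun a b hab => mul_left_cancel₀ hz₀0 hab
  refine ⟨Vx.map f, inferInstance, ?_, ?_⟩
  · rw [← Fermat.Agent.RR.RRMain.finrank_L_dx_eq_genus hx]
    exact (Submodule.equivMapOfInjective f hf Vx).finrank_eq.symm
  · rintro _ ⟨h, hh, rfl⟩
    have h1 : f h • KaehlerDifferential.D L F u₀ = h • KaehlerDifferential.D L F x := by
      show (z₀ * h) • KaehlerDifferential.D L F u₀ = _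
      rw [hDx, smul_smul, mul_comm]
    rw [h1]
    rcases (Fermat.Agent.RR.RRMain.mem_L_dx_iff' hx).mp hh with rfl | hreg
    · rw [zero_smul]
      exact isRegular_zero hx
    · exact hreg

/-! ### the zeros of a differential -/

theorem finite_ordDifferential_ne_zero {ω : Ω[F⁄L]} (hω : ω ≠ 0) :
    {v : Place L F | v.ordDifferential ω ≠ 0}.Finite := by
  have : {v : Place L F | v.ordDifferential ω ≠ 0} = ↑(canonicalDivisorOf hω).support := by
    ext v
    simp [Finsupp.mem_support_iff, canonicalDivisorOf_apply]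
  rw [this]
  exact Finset.finite_toSet _

variable (D : RedDatum L F k Ft)

/-- If `ω = ψ • d u` on the disc of the good uniformizer `u`, `ψ` integral with nonzero reduction,
and `ω` has neither zero nor pole on the disc, then `red ψ` is a unit at the reduced place. -/
theorem ord_red_eq_zero_of_ordDifferential (hx : IsGen L x) {P : Place L F} {u : D.G}
    (hu : IsGoodUnif D P u) {ψ : D.G} (hψ : D.red ψ ≠ 0) {ω : Ω[F⁄L]}
    (hω : ω = (ψ : F) • KaehlerDifferential.D L F (u : F))
    (hz : ∀ P' : Place L F, D.r P' = D.r P → P'.ordDifferential ω = 0) :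
    (D.r P).ord (D.red ψ) = 0 := by
  classical
  have hψ0 : (ψ : F) ≠ 0 := D.coe_ne_zero_of_red_ne_zero hψ
  have hDu : KaehlerDifferential.D L F (u : F) ≠ 0 :=
    D_ne_zero_of_transcendental hx (IsGoodUnif.transcendental D hu)
  have hord : ∀ P' : Place L F, D.r P' = D.r P → P'.ord (ψ : F) = 0 := by
    intro P' hP'
    have h1 := hz P' hP'
    rw [hω, ordDifferential_smul' hx P' hψ0 hDu,
      ordDifferential_D_of_unif hx P' (hu.ord_sub_valF hP'), add_zero] at h1
    exact h1
  rw [← D.fibre_sum ψ hψ (D.r P)]
  exact Finset.sum_eq_zero fun P' hP' => hord P' (Finset.mem_filter.mp hP').2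

/-! ### the main theorem -/

/-- The case of positive genus. -/
theorem exists_nsInput_succ (hx : IsGen L x) [Infinite k] {ι : Type*} (C : ChartCover D ι)
    (Bad : Finset (Place k Ft)) (n : ℕ) (hg : genus L F = n + 1) :
    ∃ I : NSInput D (n + 1), ∀ i, D.r (I.P i) ∉ Bad := by
  classical
  haveI := infinite_place_red D
  -- the base disc
  obtain ⟨P₀⟩ := D.HL.nonempty
  obtain ⟨u₀, hu₀⟩ := exists_isGoodUnif D P₀
  have hu₀tr := IsGoodUnif.transcendental D hu₀
  have hDu₀ : KaehlerDifferential.D L F (u₀ : F) ≠ 0 := D_ne_zero_of_transcendental hx hu₀tr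
  -- the space of regular differentials and its reduced basis
  obtain ⟨V, hVfd, hVrank, hVreg⟩ := exists_space hx hu₀tr
  haveI := hVfd
  obtain ⟨v, hvV, hvli⟩ := exists_red_indep_aux D (n + 1) V hVfd (hVrank.trans hg)
  -- the differentials
  let om : Fin (n + 1) → Ω[F⁄L] := fun a => ((v a : D.G) : F) • KaehlerDifferential.D L F (u₀ : F)
  have hreg : ∀ (a : Fin (n + 1)) (w : Place L F), 0 ≤ w.ordDifferential (om a) :=
    fun a => hVreg _ (hvV a)
  have hred0 : ∀ a, D.red (v a) ≠ 0 := fun a => hvli.ne_zero a
  have hom0 : om 0 ≠ 0 := smul_ne_zero (D.coe_ne_zero_of_red_ne_zero (hred0 0)) hDu₀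
  -- the functions `h a`
  let h : Fin (n + 1) → Ft := fun a => D.red (v a) * (D.red (v 0))⁻¹
  have hhli : LinearIndependent k h := by
    have hker : LinearMap.ker (LinearMap.mulRight k (D.red (v 0))⁻¹) = ⊥ :=
      LinearMap.ker_eq_bot.mpr fun a b hab =>
        mul_right_cancel₀ (inv_ne_zero (hred0 0)) hab
    exact hvli.map' _ hker
  -- the bad sets
  have hbad1 : (D.r '' {P : Place L F | P.ordDifferential (om 0) ≠ 0}).Finite :=
    (finite_ordDifferential_ne_zero hom0).image _
  have hbad2 : {Q : Place k Ft | Q.ord (D.red (v 0)) ≠ 0}.Finite :=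
    finite_ord_ne_zero D.Hk (hred0 0)
  obtain ⟨Q, hQinj, hQbad, hQreg, hdet⟩ := exists_genpos D.Hk h hhli
    (↑Bad ∪ D.r '' {P : Place L F | P.ordDifferential (om 0) ≠ 0} ∪
      {Q : Place k Ft | Q.ord (D.red (v 0)) ≠ 0})
    ((Bad.finite_toSet.union hbad1).union hbad2)
  -- the centres
  choose P hP using fun i => D.r_surj (Q i)
  choose u hu using fun i => exists_isGoodUnif D (P i)
  -- (DLINK)
  have hlink : ∀ (P' : Place L F) (u' : D.G), IsGoodUnif D P' u' → ∃ z : D.G, D.red z ≠ 0 ∧
      KaehlerDifferential.D L F (u₀ : F) = (z : F) • KaehlerDifferential.D L F (u' : F) :=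
    fun P' u' hu' => dunit_of_cover hx C hu₀ hu'
  choose z hzred hz using fun i => hlink (P i) (u i) (hu i)
  let psi : Fin (n + 1) → Fin (n + 1) → D.G := fun a i => v a * z i
  have hpsi : ∀ a i, om a = ((psi a i : D.G) : F) • KaehlerDifferential.D L F (u i : F) := by
    intro a i
    show ((v a : D.G) : F) • KaehlerDifferential.D L F (u₀ : F) =
      ((v a * z i : D.G) : F) • KaehlerDifferential.D L F (u i : F)
    rw [hz i, smul_smul, Subring.coe_mul]
  refine ⟨{ P := P, u := u, hu := hu, hinj := ?_, om := om, hreg := hreg, hint := ?_,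
            psi := psi, hpsi := hpsi, nondeg := ?_ }, ?_⟩
  · intro i j hij
    simp only [hP] at hij
    exact hQinj hij
  · intro a P' u' hu'
    obtain ⟨z', _, hz'⟩ := hlink P' u' hu'
    refine ⟨v a * z', ?_⟩
    show ((v a : D.G) : F) • KaehlerDifferential.D L F (u₀ : F) =
      ((v a * z' : D.G) : F) • KaehlerDifferential.D L F (u' : F)
    rw [hz', smul_smul, Subring.coe_mul]
  · intro gam hgam
    -- `om 0` has no zero on the chosen discs
    have hQ1 : ∀ i, ∀ P' : Place L F, D.r P' = D.r (P i) → P'.ordDifferential (om 0) = 0 := by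
      intro i P' hP'
      by_contra hne
      apply hQbad i
      left; right
      exact ⟨P', hne, by rw [hP', hP i]⟩
    have hpsired : ∀ a i, D.red (psi a i) = D.red (v a) * D.red (z i) := fun a i => map_mul _ _ _
    have hpsi0 : ∀ i, D.red (psi 0 i) ≠ 0 := fun i => by
      rw [hpsired]; exact mul_ne_zero (hred0 0) (hzred i)
    have hw : ∀ i, (Q i).ord (D.red (psi 0 i)) = 0 := by
      intro i
      have := ord_red_eq_zero_of_ordDifferential D hx (hu i) (hpsi0 i) (hpsi 0 i) (hQ1 i)
      rwa [hP i] at this
    have hfac : ∀ a i, D.red (psi a i) = h a * D.red (psi 0 i) := by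
      intro a i
      rw [hpsired, hpsired]
      show D.red (v a) * D.red (z i) = D.red (v a) * (D.red (v 0))⁻¹ * (D.red (v 0) * D.red (z i))
      field_simp [hred0 0]
    have hval : ∀ a i, valF D.Hk (D.r (P i)) (D.red (psi a i)) =
        valF D.Hk (Q i) (h a) * valF D.Hk (Q i) (D.red (psi 0 i)) := by
      intro a i
      rw [hP i, hfac a i, valF_mul D.Hk (Q i) (ffp_mem_of_ord_nonneg _ (hQreg i a))
        (ffp_mem_of_ord_nonneg _ (by rw [hw i]))]
    have hw0 : ∀ i, valF D.Hk (Q i) (D.red (psi 0 i)) ≠ 0 := fun i =>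
      valF_ne_zero_of_ord_eq_zero D.Hk (Q i) (hpsi0 i) (hw i)
    have hc := eq_zero_of_vecMul hdet
      (c := fun i => gam i * valF D.Hk (Q i) (D.red (psi 0 i))) (fun a => by
        have h1 := hgam a
        simp only [hval] at h1
        rw [← h1]
        refine Finset.sum_congr rfl fun i _ => ?_
        rw [Matrix.of_apply]
        ring)
    funext i
    have h2 := congrFun hc i
    simp only [Pi.zero_apply] at h2
    rcases mul_eq_zero.mp h2 with h3 | h3
    · exact h3
    · exact absurd h3 (hw0 i)
  · intro i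
    show D.r (P i) ∉ Bad
    rw [hP i]
    intro hmem
    exact hQbad i (Or.inl (Or.inl hmem))

/-- The (empty) input in genus zero. -/
def nsInputZero : NSInput D 0 where
  P := Fin.elim0
  u := Fin.elim0
  hu := fun i => i.elim0
  hinj := fun i => i.elim0
  om := Fin.elim0
  hreg := fun a => a.elim0
  hint := fun a => a.elim0
  psi := Fin.elim0
  hpsi := fun a => a.elim0
  nondeg := fun _ _ => funext fun i => i.elim0

/-- **Existence of the input of (NS)**, with centres reducing outside a given finite set. -/
theorem exists_nsInput (hx : IsGen L x) [Infinite k] {ι : Type*} (C : ChartCover D ι)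
    (Bad : Finset (Place k Ft)) :
    ∃ I : NSInput D (genus L F), ∀ i, D.r (I.P i) ∉ Bad := by
  generalize hg : genus L F = g
  cases g with
  | zero => exact ⟨nsInputZero D, fun i => i.elim0⟩
  | succ n => exact exists_nsInput_succ D hx C Bad n hg

end

end Fermat.Agent.FF.NS.NSExists9
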