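/-
PROGRAMME FF (S19), chapter NS (helper5): `ResNewton5` = Newton-form partial fractions for residues
on a "disc" of a function field of characteristic zero.

Setting: `F / K` with `IsGen K x` (`K` algebraically closed, characteristic zero), `u : F`, a finite
set `S` of places and values `a : Place K F → K` such that `u - a Q` is a uniformizer at every
`Q ∈ S` and `a` is injective on `S` (`DiscHyp`).  For a list `σ` of places of `S` put
`pr σ = ∏_{Q ∈ σ} (u - a Q)`.

* `sum_residue_inv_pr` : `∑_{Q ∈ S} res_Q (du / pr σ) = 1` if `σ` has one element, `0` if it has at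
  least two;
* `step`, `lastCoef` : the iterated divided differences `e ↦ (e - e(Q)) / (u - a Q)` along `σ` and
  the last Newton coefficient;
* `sum_residue_newton` : if `e` is regular at every place of `S` then
  `∑_{Q ∈ S} res_Q (e du / pr σ) = lastCoef σ e`.
-/
import Mathlib
import Fermat.Agent.RR.ResidueGlob
import Fermat.Agent.MW.EMB.Value6

set_option autoImplicit false
set_option linter.unusedSectionVars false

namespace Fermat.Agent.FF.NS.ResNewton5

open AlgebraicCurve KaehlerDifferential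
open Fermat.Agent.X0.FF Fermat.Agent.RR Fermat.Agent.RR.LocalResMain Fermat.Agent.RR.LocalRes
  Fermat.Agent.RR.AbsResidue Fermat.Agent.RR.LSpace Fermat.Agent.MW.EMB.Value6

variable {K F : Type*} [Field K] [Field F] [Algebra K F]

/-! ### local residues -/

section Local

variable [IsAlgClosed K] [CharZero K] {x : F} (hx : IsGen K x)

/-- `res_v (a dg) = 0` for `a, g` regular at `v`. -/
theorem residue_smul_D_of_nonneg (v : Place K F) {a g : F} (ha : 0 ≤ v.ord a)
    (hg : 0 ≤ v.ord g) : residue hx v (a • D K F g) = 0 :=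
  resΩ_smul_D_eq_zero v (hres_of_isGen hx v) (ffp_mem_of_ord_nonneg v ha)
    (ffp_mem_of_ord_nonneg v hg)

/-- `res_v (t⁻¹ dt) = 1` for a uniformizer `t`. -/
theorem residue_inv_smul_D (v : Place K F) {t : F} (ht : v.ord t = 1) :
    residue hx v (t⁻¹ • D K F t) = 1 :=
  resΩ_inv_smul_D_uniformizer v (hres_of_isGen hx v) ht

theorem mulOp_pow (f : F) (n : ℕ) : mulOp (K := K) (f ^ n) = mulOp f ^ n := by
  induction n with
  | zero => rw [pow_zero, pow_zero, mulOp_one]
  | succ n ih => rw [pow_succ, pow_succ, mulOp_mul, ih]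

/-- `res_v (t^{-(n+2)} dt) = 0` for every `t ≠ 0`. -/
theorem residue_inv_pow_smul_D (v : Place K F) {t : F} (ht : t ≠ 0) (n : ℕ) :
    residue hx v ((t⁻¹) ^ (n + 2) • D K F t) = 0 := by
  rw [residue_smul_D, mulOp_pow]
  exact res_inv_pow_self (by rw [← mulOp_mul, mul_inv_cancel₀ ht, mulOp_one])
    (by rw [← mulOp_mul, inv_mul_cancel₀ ht, mulOp_one]) (inE_mulOp v (hres_of_isGen hx v) t)
    (inE_mulOp v (hres_of_isGen hx v) t⁻¹) n

theorem D_sub_const (u : F) (c : K) : D K F (u - algebraMap K F c) = D K F u := by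
  rw [map_sub, Derivation.map_algebraMap, sub_zero]

end Local

/-! ### discs -/

/-- `u - a Q` is a uniformizer at every `Q ∈ S` and `Q ↦ a Q` is injective on `S`. -/
structure DiscHyp (u : F) (S : Finset (Place K F)) (a : Place K F → K) : Prop where
  unif : ∀ Q ∈ S, Q.ord (u - algebraMap K F (a Q)) = 1
  inj : Set.InjOn a (S : Set (Place K F))

namespace DiscHyp

variable {u : F} {S : Finset (Place K F)} {a : Place K F → K} (h : DiscHyp u S a)

include h

theorem sub_ne_zero {Q : Place K F} (hQ : Q ∈ S) : u - algebraMap K F (a Q) ≠ 0 := by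
  intro h0
  have := h.unif Q hQ
  rw [h0, Place.ord_zero] at this
  exact zero_ne_one this

theorem ord_sub_of_ne {Q Q' : Place K F} (hQ : Q ∈ S) (hQ' : Q' ∈ S) (hne : Q ≠ Q') :
    Q.ord (u - algebraMap K F (a Q')) = 0 := by
  have hc : a Q - a Q' ≠ 0 := _root_.sub_ne_zero.mpr fun e => hne (h.inj hQ hQ' e)
  have hcF : algebraMap K F (a Q - a Q') ≠ 0 := (map_ne_zero (algebraMap K F)).mpr hc
  have e1 : u - algebraMap K F (a Q') =
      algebraMap K F (a Q - a Q') + (u - algebraMap K F (a Q)) := by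
    rw [map_sub]; ring
  rw [e1, ffp_ord_add_eq_of_lt Q hcF (by rw [ffp_ord_algebraMap, h.unif Q hQ]; exact zero_lt_one),
    ffp_ord_algebraMap]

theorem ord_u_nonneg {Q : Place K F} (hQ : Q ∈ S) : 0 ≤ Q.ord u := by
  rcases eq_or_ne u 0 with rfl | hu
  · rw [Place.ord_zero]
  have e1 : u = (u - algebraMap K F (a Q)) + algebraMap K F (a Q) := by ring
  rw [e1]
  refine ffp_le_ord_add Q ?_ ?_ (by rwa [← e1])
  · rw [h.unif Q hQ]; exact zero_le_one
  · rw [ffp_ord_algebraMap]

end DiscHyp

/-- `pr σ = ∏_{Q ∈ σ} (u - a Q)`. -/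
noncomputable def pr (u : F) (a : Place K F → K) (σ : Multiset (Place K F)) : F :=
  (σ.map fun Q => u - algebraMap K F (a Q)).prod

theorem pr_zero (u : F) (a : Place K F → K) : pr u a 0 = 1 := by
  rw [pr, Multiset.map_zero, Multiset.prod_zero]

theorem pr_cons (u : F) (a : Place K F → K) (Q : Place K F) (σ : Multiset (Place K F)) :
    pr u a (Q ::ₘ σ) = (u - algebraMap K F (a Q)) * pr u a σ := by
  rw [pr, Multiset.map_cons, Multiset.prod_cons, pr]

theorem pr_singleton (u : F) (a : Place K F → K) (Q : Place K F) :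
    pr u a {Q} = u - algebraMap K F (a Q) := by
  rw [← Multiset.cons_zero, pr_cons, pr_zero, mul_one]

theorem pr_replicate (u : F) (a : Place K F → K) (Q : Place K F) (n : ℕ) :
    pr u a (Multiset.replicate n Q) = (u - algebraMap K F (a Q)) ^ n := by
  rw [pr, Multiset.map_replicate, Multiset.prod_replicate]

theorem pr_ne_zero {u : F} {S : Finset (Place K F)} {a : Place K F → K} (h : DiscHyp u S a)
    {σ : Multiset (Place K F)} (hσ : ∀ Q ∈ σ, Q ∈ S) : pr u a σ ≠ 0 := by
  rw [pr]
  apply Multiset.prod_ne_zero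
  intro h0
  obtain ⟨Q, hQ, hQ0⟩ := Multiset.mem_map.mp h0
  exact h.sub_ne_zero (hσ Q hQ) hQ0

/-- order of `pr σ` at a place of `S` outside `σ`. -/
theorem ord_pr_of_not_mem {u : F} {S : Finset (Place K F)} {a : Place K F → K}
    (h : DiscHyp u S a) {σ : Multiset (Place K F)} (hσ : ∀ Q ∈ σ, Q ∈ S) {Q : Place K F}
    (hQ : Q ∈ S) (hQσ : Q ∉ σ) : Q.ord (pr u a σ) = 0 := by
  induction σ using Multiset.induction with
  | empty => rw [pr_zero, Place.ord_one]
  | cons Q' σ ih =>
    have hσ' : ∀ Q ∈ σ, Q ∈ S := fun Q hQ => hσ Q (Multiset.mem_cons_of_mem hQ)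
    have hQ'S : Q' ∈ S := hσ Q' (Multiset.mem_cons_self Q' σ)
    have hne : Q ≠ Q' := fun e => hQσ (e ▸ Multiset.mem_cons_self Q σ)
    rw [pr_cons, Q.ord_mul (h.sub_ne_zero hQ'S) (pr_ne_zero h hσ'),
      h.ord_sub_of_ne hQ hQ'S hne, ih hσ' (fun hm => hQσ (Multiset.mem_cons_of_mem hm)), add_zero]

/-! ### the residue sums of `du / pr σ` -/

section Sums

variable [IsAlgClosed K] [CharZero K] {x : F} (hx : IsGen K x)
variable {u : F} {S : Finset (Place K F)} {a : Place K F → K}

/-- one factor: `∑_{Q ∈ S} res_Q (du / (u - a Q₀)) = 1`. -/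
theorem sum_residue_inv_singleton (h : DiscHyp u S a) {Q₀ : Place K F} (hQ₀ : Q₀ ∈ S) :
    ∑ Q ∈ S, residue hx Q ((pr u a {Q₀})⁻¹ • D K F u) = 1 := by
  classical
  rw [pr_singleton, Finset.sum_eq_single Q₀]
  · rw [← D_sub_const u (a Q₀)]
    exact residue_inv_smul_D hx Q₀ (h.unif Q₀ hQ₀)
  · intro Q hQ hne
    refine residue_smul_D_of_nonneg hx Q ?_ (h.ord_u_nonneg hQ)
    rw [Q.ord_inv, h.ord_sub_of_ne hQ hQ₀ hne, neg_zero]
  · intro hn; exact absurd hQ₀ hn

/-- all factors equal, at least two of them. -/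
theorem sum_residue_inv_replicate (h : DiscHyp u S a) {Q₀ : Place K F} (hQ₀ : Q₀ ∈ S) (n : ℕ) :
    ∑ Q ∈ S, residue hx Q ((pr u a (Multiset.replicate (n + 2) Q₀))⁻¹ • D K F u) = 0 := by
  refine Finset.sum_eq_zero fun Q _ => ?_
  rw [pr_replicate, ← inv_pow, ← D_sub_const u (a Q₀)]
  exact residue_inv_pow_smul_D hx Q (h.sub_ne_zero hQ₀) n

/-- partial fractions for two distinct factors. -/
theorem inv_pr_cons_cons (h : DiscHyp u S a) {Q₁ Q₂ : Place K F} (h₁ : Q₁ ∈ S) (h₂ : Q₂ ∈ S)
    (hne : Q₁ ≠ Q₂) {σ : Multiset (Place K F)} (hσ : ∀ Q ∈ σ, Q ∈ S) :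
    (pr u a (Q₁ ::ₘ Q₂ ::ₘ σ))⁻¹ =
      (a Q₁ - a Q₂)⁻¹ • ((pr u a (Q₁ ::ₘ σ))⁻¹ - (pr u a (Q₂ ::ₘ σ))⁻¹) := by
  have hc : a Q₁ - a Q₂ ≠ 0 := sub_ne_zero.mpr fun e => hne (h.inj h₁ h₂ e)
  have hcF : algebraMap K F (a Q₁) - algebraMap K F (a Q₂) ≠ 0 := by
    rw [← map_sub]; exact (map_ne_zero (algebraMap K F)).mpr hc
  have n1 := h.sub_ne_zero h₁
  have n2 := h.sub_ne_zero h₂
  have n3 := pr_ne_zero h hσ
  simp only [pr_cons]
  rw [Algebra.smul_def, map_inv₀, map_sub]
  field_simp
  ring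

/-- **The residue sums of `du / pr σ`**: `1` for one factor, `0` for at least two. -/
theorem sum_residue_inv_pr (h : DiscHyp u S a) :
    ∀ (n : ℕ) (σ : Multiset (Place K F)), σ.card = n + 1 → (∀ Q ∈ σ, Q ∈ S) →
      ∑ Q ∈ S, residue hx Q ((pr u a σ)⁻¹ • D K F u) = if n = 0 then 1 else 0 := by
  classical
  intro n
  induction n with
  | zero =>
    intro σ hcard hσ
    obtain ⟨Q₀, rfl⟩ := Multiset.card_eq_one.mp hcard
    rw [if_pos rfl]
    exact sum_residue_inv_singleton hx h (hσ Q₀ (Multiset.mem_singleton_self Q₀))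
  | succ n ih =>
    intro σ hcard hσ
    rw [if_neg (Nat.succ_ne_zero n)]
    have hpos : 0 < σ.card := by omega
    obtain ⟨Q₀, hQ₀⟩ := Multiset.card_pos_iff_exists_mem.mp hpos
    by_cases hall : ∀ Q ∈ σ, Q = Q₀
    · have hrep : σ = Multiset.replicate (n + 2) Q₀ :=
        Multiset.eq_replicate.mpr ⟨hcard, hall⟩
      rw [hrep]
      exact sum_residue_inv_replicate hx h (hσ Q₀ hQ₀) n
    · push Not at hall
      obtain ⟨Q₂, hQ₂, hne⟩ := hall
      obtain ⟨σ₁, rfl⟩ := Multiset.exists_cons_of_mem hQ₀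
      have hQ₂' : Q₂ ∈ σ₁ := (Multiset.mem_cons.mp hQ₂).resolve_left hne
      obtain ⟨σ₂, rfl⟩ := Multiset.exists_cons_of_mem hQ₂'
      have hσ₂ : ∀ Q ∈ σ₂, Q ∈ S := fun Q hQ =>
        hσ Q (Multiset.mem_cons_of_mem (Multiset.mem_cons_of_mem hQ))
      have h0S : Q₀ ∈ S := hσ Q₀ (Multiset.mem_cons_self _ _)
      have h2S : Q₂ ∈ S := hσ Q₂ (Multiset.mem_cons_of_mem (Multiset.mem_cons_self _ _))
      have hc2 : σ₂.card = n := by
        rw [Multiset.card_cons, Multiset.card_cons] at hcard; omega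
      have e1 := ih (Q₀ ::ₘ σ₂) (by rw [Multiset.card_cons, hc2])
        (fun Q hQ => by
          rcases Multiset.mem_cons.mp hQ with rfl | hQ
          · exact h0S
          · exact hσ₂ Q hQ)
      have e2 := ih (Q₂ ::ₘ σ₂) (by rw [Multiset.card_cons, hc2])
        (fun Q hQ => by
          rcases Multiset.mem_cons.mp hQ with rfl | hQ
          · exact h2S
          · exact hσ₂ Q hQ)
      rw [inv_pr_cons_cons h h0S h2S (Ne.symm hne) hσ₂]
      simp only [smul_assoc, map_smul, sub_smul, map_sub]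
      rw [← Finset.smul_sum, Finset.sum_sub_distrib, e1, e2, sub_self, smul_zero]

end Sums

/-! ### divided differences and the Newton form -/

section Newton

variable (HL : LHyp K F) (u : F) (a : Place K F → K)

/-- the divided difference `e ↦ (e - e(Q)) / (u - a Q)`. -/
noncomputable def step (Q : Place K F) (e : F) : F :=
  (e - algebraMap K F (valF HL Q e)) / (u - algebraMap K F (a Q))

/-- the last Newton coefficient of `e` along the list `σ`. -/
noncomputable def lastCoef : List (Place K F) → F → K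
  | [], _ => 0
  | [Q], e => valF HL Q e
  | Q :: Q' :: σ, e => lastCoef (Q' :: σ) (step HL u a Q e)

theorem lastCoef_singleton (Q : Place K F) (e : F) : lastCoef HL u a [Q] e = valF HL Q e := rfl

theorem lastCoef_cons_cons (Q Q' : Place K F) (σ : List (Place K F)) (e : F) :
    lastCoef HL u a (Q :: Q' :: σ) e = lastCoef HL u a (Q' :: σ) (step HL u a Q e) := rfl

variable {u a} {S : Finset (Place K F)}

theorem step_spec (h : DiscHyp u S a) {Q : Place K F} (hQ : Q ∈ S) (e : F) :
    e = algebraMap K F (valF HL Q e) + (u - algebraMap K F (a Q)) * step HL u a Q e := by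
  rw [step, mul_div_cancel₀ _ (h.sub_ne_zero hQ)]; ring

/-- the divided difference of a function regular on `S` is regular on `S`. -/
theorem ord_step_nonneg (h : DiscHyp u S a) {Q : Place K F} (hQ : Q ∈ S) {e : F}
    (he : ∀ Q' ∈ S, 0 ≤ Q'.ord e) : ∀ Q' ∈ S, 0 ≤ Q'.ord (step HL u a Q e) := by
  intro Q' hQ'
  set num := e - algebraMap K F (valF HL Q e) with hnum
  rcases eq_or_ne num 0 with h0 | h0
  · rw [step, ← hnum, h0, zero_div, Place.ord_zero]
  have hden := h.sub_ne_zero hQ
  have hnum_ord : 0 ≤ Q'.ord num := by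
    have : num = e + -algebraMap K F (valF HL Q e) := by rw [hnum]; ring
    rw [this]
    refine ffp_le_ord_add Q' (he Q' hQ') ?_ (by rwa [← this])
    rw [ffp_ord_neg, ffp_ord_algebraMap]
  rw [step, ← hnum, div_eq_mul_inv, Q'.ord_mul h0 (inv_ne_zero hden), Q'.ord_inv]
  by_cases hQQ : Q' = Q
  · subst hQQ
    have hpos : 0 < Q'.ord num :=
      ord_sub_valF_pos HL Q' (ffp_mem_of_ord_nonneg Q' (he Q' hQ'))
        (fun e0 => h0 (by rw [hnum]; exact sub_eq_zero.mpr e0))
    rw [h.unif Q' hQ']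
    omega
  · rw [h.ord_sub_of_ne hQ' hQ hQQ]
    omega

variable [IsAlgClosed K] [CharZero K] {x : F} (hx : IsGen K x)

/-- **Newton-form partial fractions**: for `e` regular on `S` and a nonempty list `σ` of places of
`S`, `∑_{Q ∈ S} res_Q (e du / pr σ) = lastCoef σ e`. -/
theorem sum_residue_newton (h : DiscHyp u S a) :
    ∀ (σ : List (Place K F)), σ ≠ [] → (∀ Q ∈ σ, Q ∈ S) → ∀ e : F, (∀ Q ∈ S, 0 ≤ Q.ord e) →
      ∑ Q ∈ S, residue hx Q ((e / pr u a (σ : Multiset (Place K F))) • D K F u) =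
        lastCoef HL u a σ e := by
  intro σ
  induction σ with
  | nil => intro hne; exact absurd rfl hne
  | cons Q σ ih =>
    intro _ hσ e he
    have hQ : Q ∈ S := hσ Q (List.mem_cons_self)
    have hσ' : ∀ Q' ∈ σ, Q' ∈ S := fun Q' hQ' => hσ Q' (List.mem_cons_of_mem Q hQ')
    have hreg := ord_step_nonneg HL h hQ he
    have hspec := step_spec HL h hQ e
    have hden := h.sub_ne_zero hQ
    cases σ with
    | nil =>
      rw [lastCoef_singleton]
      have e1 : e / pr u a ((([Q] : List (Place K F)) : Multiset (Place K F))) =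
          valF HL Q e • (pr u a {Q})⁻¹ + step HL u a Q e := by
        have : (([Q] : List (Place K F)) : Multiset (Place K F)) = {Q} := rfl
        rw [this, pr_singleton, Algebra.smul_def]
        conv_lhs => rw [hspec]
        field_simp
      simp only [e1, add_smul, map_add, smul_assoc, map_smul]
      rw [Finset.sum_add_distrib, ← Finset.smul_sum, sum_residue_inv_singleton hx h hQ,
        Finset.sum_eq_zero (fun Q' hQ' =>
          residue_smul_D_of_nonneg hx Q' (hreg Q' hQ') (h.ord_u_nonneg hQ')),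
        add_zero, smul_eq_mul, mul_one]
    | cons Q' σ =>
      rw [lastCoef_cons_cons]
      have hσm : ∀ Q'' ∈ ((Q :: Q' :: σ : List (Place K F)) : Multiset (Place K F)), Q'' ∈ S :=
        fun Q'' hQ'' => hσ Q'' (Multiset.mem_coe.mp hQ'')
      have hσm' : ∀ Q'' ∈ ((Q' :: σ : List (Place K F)) : Multiset (Place K F)), Q'' ∈ S :=
        fun Q'' hQ'' => hσ' Q'' (Multiset.mem_coe.mp hQ'')
      have hcons : ((Q :: Q' :: σ : List (Place K F)) : Multiset (Place K F)) =
          Q ::ₘ ((Q' :: σ : List (Place K F)) : Multiset (Place K F)) := rfl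
      have hp' := pr_ne_zero h hσm'
      have e1 : e / pr u a ((Q :: Q' :: σ : List (Place K F)) : Multiset (Place K F)) =
          valF HL Q e • (pr u a ((Q :: Q' :: σ : List (Place K F)) : Multiset (Place K F)))⁻¹ +
            step HL u a Q e / pr u a ((Q' :: σ : List (Place K F)) : Multiset (Place K F)) := by
        rw [hcons, pr_cons, Algebra.smul_def]
        conv_lhs => rw [hspec]
        field_simp
      have hN := sum_residue_inv_pr hx h (σ.length + 1)
        ((Q :: Q' :: σ : List (Place K F)) : Multiset (Place K F))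
        (by rw [Multiset.coe_card, List.length_cons, List.length_cons]) hσm
      rw [if_neg (Nat.succ_ne_zero _)] at hN
      simp only [e1, add_smul, map_add, smul_assoc, map_smul]
      rw [Finset.sum_add_distrib, ← Finset.smul_sum, hN, smul_zero, zero_add]
      exact ih (List.cons_ne_nil _ _) hσ' _ hreg

end Newton

end Fermat.Agent.FF.NS.ResNewton5
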