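/-
PROGRAMME FF (S19), chapter NS (helper5): `ResComp5` = RESIDUE COMPARISON on one residue disc.

`D : RedDatum L F k Ft`, `u` a good uniformizer centred at `P`, `Q = D.r P`, `t = D.red u`.
For `f, ψ` in the Gauss ring, `ψ` without poles on the disc `U(Q)`, and a finite set `Pol` of places
containing the poles of `f` on the disc:

  `∑_{v ∈ Pol, r v = Q} res_v (f ψ du) = c ∈ A`   and   `res c = (t · red f · red ψ)(Q)`

(`disc_residue_sum`), provided `t · red f · red ψ` is regular at `Q`.  In words: the sum of the
residues of `f ψ du` over the disc is integral and reduces to the residue of `red f · red ψ · dt` at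
`Q` when the latter has at most a simple pole.

Proof: Newton-form partial fractions (`ResNewton5.sum_residue_newton`) applied to
`e₀ = (∏_{v ∈ S} (u - u(v)))^N · f · ψ`, whose divided differences stay in the Gauss ring, are
pole-free on the disc and reduce to the divided differences of `red e₀ = t^n · red f · red ψ` at `Q`.
-/
import Mathlib
import Fermat.Agent.FF.RED.Gauss7
import Fermat.Agent.FF.RED.Disc7
import Fermat.Agent.FF.NS.ResNewton5

set_option autoImplicit false
set_option linter.unusedSectionVars false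

namespace Fermat.Agent.FF.NS.ResComp5

open AlgebraicCurve
open Fermat.Agent.X0.FF Fermat.Agent.RR.LSpace Fermat.Agent.MW.EMB.Value6
open Fermat.Agent.RR.LocalResMain
open Fermat.Agent.FF.RED.RedDatum7 Fermat.Agent.FF.RED.Disc7 Fermat.Agent.FF.RED.Gauss7
open Fermat.Agent.FF.NS.ResNewton5

noncomputable section

/-! ### Taylor coefficients at a place (any characteristic) -/

section Taylor

variable {K E : Type*} [Field K] [Field E] [Algebra K E] (H : LHyp K E) (Q : Place K E) (t : E)

/-- the divided difference `e ↦ (e - e(Q)) / t` at the place `Q`. -/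
def stepk (e : E) : E := (e - algebraMap K E (valF H Q e)) / t

/-- the `n`-th Taylor coefficient at `Q` with respect to `t`. -/
def tck : ℕ → E → K
  | 0, e => valF H Q e
  | n + 1, e => tck n (stepk H Q t e)

theorem tck_zero (e : E) : tck H Q t 0 e = valF H Q e := rfl

theorem tck_succ (n : ℕ) (e : E) : tck H Q t (n + 1) e = tck H Q t n (stepk H Q t e) := rfl

variable {t}

theorem stepk_mul (ht : Q.ord t = 1) {w : E} (hw : 0 ≤ Q.ord w) : stepk H Q t (t * w) = w := by
  have ht0 : t ≠ 0 := by rintro rfl; rw [Place.ord_zero] at ht; exact zero_ne_one ht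
  have htmem : t ∈ Q.toValuationSubring := ffp_mem_of_ord_nonneg Q (by rw [ht]; exact zero_le_one)
  have hwmem : w ∈ Q.toValuationSubring := ffp_mem_of_ord_nonneg Q hw
  have hval : valF H Q (t * w) = 0 := by
    rw [valF_eq_zero_iff H Q (mul_mem htmem hwmem)]
    rcases eq_or_ne w 0 with rfl | hw0
    · left; rw [mul_zero]
    · right; rw [Q.ord_mul ht0 hw0, ht]; omega
  rw [stepk, hval, map_zero, sub_zero, mul_div_cancel_left₀ _ ht0]

theorem ord_pow_mul_nonneg (ht : Q.ord t = 1) {w : E} (hw : 0 ≤ Q.ord w) (m : ℕ) :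
    0 ≤ Q.ord (t ^ m * w) := by
  have ht0 : t ≠ 0 := by rintro rfl; rw [Place.ord_zero] at ht; exact zero_ne_one ht
  rcases eq_or_ne w 0 with rfl | hw0
  · rw [mul_zero, Place.ord_zero]
  · rw [Q.ord_mul (pow_ne_zero m ht0) hw0, ← zpow_natCast, Q.ord_zpow, ht]
    positivity

/-- the `m`-th Taylor coefficient of `t^m · w` is the value of `w`. -/
theorem tck_pow_mul (ht : Q.ord t = 1) {w : E} (hw : 0 ≤ Q.ord w) (m : ℕ) :
    tck H Q t m (t ^ m * w) = valF H Q w := by
  induction m with
  | zero => rw [pow_zero, one_mul, tck_zero]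
  | succ m ih =>
    rw [tck_succ, pow_succ', mul_assoc, stepk_mul H Q ht (ord_pow_mul_nonneg Q ht hw m), ih]

end Taylor

variable {L F k Ft : Type*} [Field L] [Field F] [Algebra L F] [Field k] [Field Ft] [Algebra k Ft]
variable {D : RedDatum L F k Ft} {P : Place L F} {u : D.G}

/-! ### the disc hypotheses of `ResNewton5` -/

/-- the coordinate function of the disc: `v ↦ u(v)`. -/
def coord (D : RedDatum L F k Ft) (u : D.G) : Place L F → L := fun v => valF D.HL v (u : F)

theorem discHyp (hu : IsGoodUnif D P u) (S : Finset (Place L F))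
    (hS : ∀ v ∈ S, D.r v = D.r P) : DiscHyp (u : F) S (coord D u) where
  unif := fun v hv => hu.ord_sub_valF (hS v hv)
  inj := fun v hv v' hv' h => hu.eq_of_valF_eq (hS v hv) (hS v' hv') h

/-! ### one divided difference in the Gauss ring -/

section Step

variable (hu : IsGoodUnif D P u)
include hu

/-- the linear factor `u - u(v)` in the Gauss ring. -/
def lin {v : Place L F} (hv : D.r v = D.r P) : D.G := u - D.const (valA D u hu.poleFree hv)

theorem coe_lin {v : Place L F} (hv : D.r v = D.r P) :
    ((lin hu hv : D.G) : F) = (u : F) - algebraMap L F (coord D u v) := rfl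

theorem red_lin {v : Place L F} (hv : D.r v = D.r P) : D.red (lin hu hv) = D.red u :=
  hu.red_sub_const (hu.valA_not_isUnit hv)

theorem red_lin_ne_zero {v : Place L F} (hv : D.r v = D.r P) : D.red (lin hu hv) ≠ 0 := by
  rw [red_lin]; exact hu.2.1

/-- the divided difference of `e` at `v`, in the Gauss ring. -/
def stepG {v : Place L F} (hv : D.r v = D.r P) (e : D.G) (he : D.PoleFree (e : F) (D.r P)) : D.G :=
  divG D (e - D.const (valA D e he hv)) (lin hu hv) (red_lin_ne_zero hu hv)

theorem coe_stepG {v : Place L F} (hv : D.r v = D.r P) (e : D.G)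
    (he : D.PoleFree (e : F) (D.r P)) :
    ((stepG hu hv e he : D.G) : F) = step D.HL (u : F) (coord D u) v (e : F) := by
  rw [stepG, coe_divG]
  rfl

theorem red_stepG {v : Place L F} (hv : D.r v = D.r P) (e : D.G)
    (he : D.PoleFree (e : F) (D.r P)) :
    D.red (stepG hu hv e he) = stepk D.Hk (D.r P) (D.red u) (D.red e) := by
  rw [stepG, red_divG, map_sub, D.red_const', res_valF D e he hv, red_lin, stepk]

theorem poleFree_stepG {v : Place L F} (hv : D.r v = D.r P) (e : D.G)
    (he : D.PoleFree (e : F) (D.r P)) :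
    D.PoleFree ((stepG hu hv e he : D.G) : F) (D.r P) := by
  classical
  intro v' hv'
  rw [coe_stepG]
  have hS : ∀ w ∈ ({v, v'} : Finset (Place L F)), D.r w = D.r P := by
    intro w hw
    rw [Finset.mem_insert, Finset.mem_singleton] at hw
    rcases hw with rfl | rfl
    · exact hv
    · exact hv'
  exact ord_step_nonneg D.HL (discHyp hu _ hS) (Finset.mem_insert_self v _)
    (fun w hw => he w (hS w hw)) v' (Finset.mem_insert_of_mem (Finset.mem_singleton_self v'))

/-- **The last Newton coefficient is integral and reduces to a Taylor coefficient.** -/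
theorem lastCoef_red : ∀ σ : List (Place L F), σ ≠ [] → (∀ v ∈ σ, D.r v = D.r P) →
    ∀ (e : D.G), D.PoleFree (e : F) (D.r P) →
      ∃ c : D.A, (c : L) = lastCoef D.HL (u : F) (coord D u) σ (e : F) ∧
        D.res c = tck D.Hk (D.r P) (D.red u) (σ.length - 1) (D.red e) := by
  intro σ
  induction σ with
  | nil => intro hne; exact absurd rfl hne
  | cons v σ ih =>
    intro _ hσ e he
    have hv : D.r v = D.r P := hσ v List.mem_cons_self
    cases σ with
    | nil =>
      refine ⟨valA D e he hv, rfl, ?_⟩
      rw [res_valF D e he hv]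
      rfl
    | cons v' σ =>
      have hσ' : ∀ w ∈ v' :: σ, D.r w = D.r P := fun w hw => hσ w (List.mem_cons_of_mem v hw)
      obtain ⟨c, hc, hres⟩ := ih (List.cons_ne_nil _ _) hσ' (stepG hu hv e he)
        (poleFree_stepG hu hv e he)
      refine ⟨c, ?_, ?_⟩
      · rw [hc, coe_stepG, lastCoef_cons_cons]
      · rw [hres, red_stepG]
        rfl

end Step

/-! ### the denominator `(∏_{v ∈ S} (u - u(v)))^N` -/

section Denominator

open Classical in
/-- the linear factor for an arbitrary place (`u` itself off the disc). -/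
def linT (hu : IsGoodUnif D P u) (v : Place L F) : D.G :=
  if hv : D.r v = D.r P then lin hu hv else u

theorem linT_of_mem (hu : IsGoodUnif D P u) {v : Place L F} (hv : D.r v = D.r P) :
    linT hu v = lin hu hv := by
  classical
  rw [linT, dif_pos hv]

/-- the denominator, in the Gauss ring. -/
def denG (hu : IsGoodUnif D P u) (S : Finset (Place L F)) (N : ℕ) : D.G :=
  (∏ v ∈ S, linT hu v) ^ N

theorem coe_denG (hu : IsGoodUnif D P u) (S : Finset (Place L F)) (N : ℕ)
    (hS : ∀ v ∈ S, D.r v = D.r P) :
    ((denG hu S N : D.G) : F) = pr (u : F) (coord D u) (N • S.val) := by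
  rw [pr, Multiset.map_nsmul, Multiset.prod_nsmul, denG]
  show (((∏ v ∈ S, linT hu v : D.G) : F)) ^ N = _
  congr 1
  rw [← D.G.subtype_apply, map_prod]
  show ∏ v ∈ S, ((linT hu v : D.G) : F) = _
  rw [Finset.prod_eq_multiset_prod]
  congr 1
  apply Multiset.map_congr rfl
  intro v hv
  rw [linT_of_mem hu (hS v (Finset.mem_val.mp hv)), coe_lin]

theorem red_denG (hu : IsGoodUnif D P u) (S : Finset (Place L F)) (N : ℕ)
    (hS : ∀ v ∈ S, D.r v = D.r P) :
    D.red (denG hu S N) = D.red u ^ (S.card * N) := by
  rw [denG, map_pow, map_prod, pow_mul]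
  congr 1
  rw [Finset.prod_congr rfl (fun v hv => by rw [linT_of_mem hu (hS v hv), red_lin]),
    Finset.prod_const]

open Classical in
/-- the order of the denominator at a place of the disc. -/
theorem ord_pr_nsmul (hu : IsGoodUnif D P u) (S : Finset (Place L F)) (N : ℕ)
    (hS : ∀ v ∈ S, D.r v = D.r P) {v : Place L F} (hv : D.r v = D.r P) :
    v.ord (pr (u : F) (coord D u) (N • S.val)) = if v ∈ S then (N : ℤ) else 0 := by
  classical
  have hS' : ∀ w ∈ insert v S, D.r w = D.r P := by
    intro w hw
    rcases Finset.mem_insert.mp hw with rfl | hw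
    · exact hv
    · exact hS w hw
  have hD := discHyp hu (insert v S) hS'
  have hpow : pr (u : F) (coord D u) (N • S.val) = pr (u : F) (coord D u) S.val ^ N := by
    rw [pr, pr, Multiset.map_nsmul, Multiset.prod_nsmul]
  have hbase : v.ord (pr (u : F) (coord D u) S.val) = if v ∈ S then 1 else 0 := by
    by_cases hvS : v ∈ S
    · rw [if_pos hvS]
      have hval : S.val = v ::ₘ (S.erase v).val := by
        rw [Finset.erase_val]
        exact (Multiset.cons_erase (Finset.mem_val.mpr hvS)).symm
      have hE : ∀ w ∈ (S.erase v).val, w ∈ insert v S := fun w hw =>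
        Finset.mem_insert_of_mem (Finset.mem_of_mem_erase (Finset.mem_val.mp hw))
      rw [hval, pr_cons, v.ord_mul (hD.sub_ne_zero (Finset.mem_insert_self v S))
        (pr_ne_zero hD hE), hD.unif v (Finset.mem_insert_self v S),
        ord_pr_of_not_mem hD hE (Finset.mem_insert_self v S)
          (fun hm => Finset.notMem_erase v S (Finset.mem_val.mp hm)), add_zero]
    · rw [if_neg hvS]
      exact ord_pr_of_not_mem hD (fun w hw => Finset.mem_insert_of_mem (Finset.mem_val.mp hw))
        (Finset.mem_insert_self v S) (fun hm => hvS (Finset.mem_val.mp hm))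
  rw [hpow, ← zpow_natCast, v.ord_zpow, hbase]
  split_ifs <;> simp

end Denominator

/-! ### the residue sum over one disc -/

section Disc

variable [IsAlgClosed L] [CharZero L] {x : F} (hx : IsGen L x)

open Classical in
/-- **RESIDUE COMPARISON on one disc.**  `f, ψ` integral, `ψ` pole-free on the disc of `Q = r P`,
`Pol` a finite set containing the poles of `f` on the disc, `t · red f · red ψ` regular at `Q`
(`t = red u`).  Then the sum of the residues of `f ψ du` over the places of `Pol` in the disc is an
element `c` of `A`, and `res c` is the value of `t · red f · red ψ` at `Q`. -/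
theorem disc_residue_sum (hu : IsGoodUnif D P u) (f ψ : D.G)
    (hψ : D.PoleFree (ψ : F) (D.r P)) (Pol : Finset (Place L F))
    (hPol : ∀ v : Place L F, D.r v = D.r P → v.ord (f : F) < 0 → v ∈ Pol)
    (hreg : 0 ≤ (D.r P).ord (D.red u * (D.red f * D.red ψ))) :
    ∃ c : D.A,
      ∑ v ∈ Pol.filter (fun v => D.r v = D.r P),
          residue hx v (((f : F) * (ψ : F)) • KaehlerDifferential.D L F (u : F)) = (c : L) ∧
        D.res c = valF D.Hk (D.r P) (D.red u * (D.red f * D.red ψ)) := by
  -- the finite set of places and the multiplicity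
  set S : Finset (Place L F) := insert P (Pol.filter fun v => D.r v = D.r P) with hSdef
  have hS : ∀ v ∈ S, D.r v = D.r P := by
    intro v hv
    rcases Finset.mem_insert.mp hv with rfl | hv
    · rfl
    · exact (Finset.mem_filter.mp hv).2
  set N : ℕ := 1 + ∑ v ∈ S, (v.ord (f : F)).natAbs with hNdef
  have hN : ∀ v ∈ S, -v.ord (f : F) ≤ (N : ℤ) := by
    intro v hv
    have h1 : (v.ord (f : F)).natAbs ≤ ∑ w ∈ S, (w.ord (f : F)).natAbs :=
      Finset.single_le_sum (f := fun w : Place L F => (w.ord (f : F)).natAbs)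
        (fun _ _ => Nat.zero_le _) hv
    have h2 : -v.ord (f : F) ≤ ((v.ord (f : F)).natAbs : ℤ) := by
      rw [← Int.abs_eq_natAbs]; exact neg_le_abs _
    have h3 : (v.ord (f : F)).natAbs ≤ N := by
      rw [hNdef]; omega
    have h4 : ((v.ord (f : F)).natAbs : ℤ) ≤ (N : ℤ) := by exact_mod_cast h3
    omega
  have hD := discHyp hu S hS
  set σm : Multiset (Place L F) := N • S.val with hσm
  have hσmS : ∀ v ∈ σm, v ∈ S := by
    intro v hv
    rw [hσm] at hv
    exact Finset.mem_val.mp (Multiset.mem_of_mem_nsmul hv)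
  have hcard : σm.card = S.card * N := by
    rw [hσm, Multiset.card_nsmul, Finset.card_val, mul_comm]
  have hSpos : 0 < S.card := Finset.card_pos.mpr ⟨P, Finset.mem_insert_self _ _⟩
  have hNpos : 0 < N := by rw [hNdef]; omega
  have hn : 0 < S.card * N := Nat.mul_pos hSpos hNpos
  set σ : List (Place L F) := σm.toList with hσ
  have hσcoe : (σ : Multiset (Place L F)) = σm := Multiset.coe_toList σm
  have hσne : σ ≠ [] := by
    intro h0
    have : σm.card = 0 := by rw [← hσcoe, h0]; rfl
    omega
  have hσS : ∀ v ∈ σ, v ∈ S := fun v hv => hσmS v (by rw [← hσcoe]; exact Multiset.mem_coe.mpr hv)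
  have hσlen : σ.length = S.card * N := by rw [hσ, Multiset.length_toList, hcard]
  -- the numerator
  set p : D.G := denG hu S N with hp
  have hpcoe : (p : F) = pr (u : F) (coord D u) σm := coe_denG hu S N hS
  have hp0 : (p : F) ≠ 0 := by rw [hpcoe]; exact pr_ne_zero hD hσmS
  set e₀ : D.G := p * (f * ψ) with he₀
  have he₀coe : (e₀ : F) = (p : F) * ((f : F) * (ψ : F)) := rfl
  -- `p f` has no poles on the disc
  have hpf : D.PoleFree ((p : F) * (f : F)) (D.r P) := by
    intro v hv
    rcases eq_or_ne (f : F) 0 with hf0 | hf0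
    · rw [hf0, mul_zero, Place.ord_zero]
    rw [v.ord_mul hp0 hf0, hpcoe, hσm, ord_pr_nsmul hu S N hS hv]
    by_cases hvS : v ∈ S
    · rw [if_pos hvS]
      have := hN v hvS
      omega
    · rw [if_neg hvS, zero_add]
      by_contra hneg
      apply hvS
      exact Finset.mem_insert_of_mem (Finset.mem_filter.mpr ⟨hPol v hv (not_le.mp hneg), hv⟩)
  have he₀pf : D.PoleFree (e₀ : F) (D.r P) := by
    rw [he₀coe, ← mul_assoc]
    exact poleFree_mul D hpf hψ
  -- Newton form
  have hnewton := sum_residue_newton D.HL hx hD σ hσne hσS (e₀ : F)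
    (fun v hv => he₀pf v (hS v hv))
  obtain ⟨c, hc, hres⟩ := lastCoef_red hu σ hσne (fun v hv => hS v (hσS v hv)) e₀ he₀pf
  refine ⟨c, ?_, ?_⟩
  · rw [hc, ← hnewton, hσcoe]
    have hterm : ∀ v ∈ S, residue hx v (((f : F) * (ψ : F)) • KaehlerDifferential.D L F (u : F)) =
        residue hx v (((e₀ : F) / pr (u : F) (coord D u) σm) •
          KaehlerDifferential.D L F (u : F)) := by
      intro v _
      rw [he₀coe, ← hpcoe, mul_div_cancel_left₀ _ hp0]
    rw [← Finset.sum_congr rfl hterm]
    by_cases hPmem : P ∈ Pol.filter fun v => D.r v = D.r P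
    · rw [hSdef, Finset.insert_eq_of_mem hPmem]
    · rw [hSdef, Finset.sum_insert hPmem]
      have hfP : 0 ≤ P.ord (f : F) := by
        by_contra hneg
        exact hPmem (Finset.mem_filter.mpr ⟨hPol P rfl (not_le.mp hneg), rfl⟩)
      have hfψ : 0 ≤ P.ord ((f : F) * (ψ : F)) := by
        rcases eq_or_ne (f : F) 0 with h0 | h0
        · rw [h0, zero_mul, Place.ord_zero]
        rcases eq_or_ne (ψ : F) 0 with h1 | h1
        · rw [h1, mul_zero, Place.ord_zero]
        rw [P.ord_mul h0 h1]
        have := hψ P rfl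
        omega
      rw [residue_smul_D_of_nonneg hx P hfψ (hu.poleFree P rfl), zero_add]
  · rw [hres, hσlen]
    have hred : D.red e₀ = D.red u ^ (S.card * N - 1) * (D.red u * (D.red f * D.red ψ)) := by
      rw [he₀, map_mul, map_mul, hp, red_denG hu S N hS]
      have hpow : D.red u ^ (S.card * N) = D.red u ^ (S.card * N - 1) * D.red u := by
        rw [← pow_succ, Nat.sub_add_cancel hn]
      rw [hpow, mul_assoc]
    rw [hred]
    exact tck_pow_mul D.Hk (D.r P) hu.ord_red hreg _

end Disc

end

end Fermat.Agent.FF.NS.ResComp5
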