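/-
PROGRAMME FF (S19), chapter NS (helper5): `NonSpecial5` = the global assembly of (NS).

`D : RedDatum L F k Ft`, `L` algebraically closed of characteristic zero, `hx : IsGen L x`,
`D.red` surjective.  From an `NSInput D g` (centres `P i` with good uniformizers, regular
differentials integral on every residue disc, nondegenerate value matrix) we prove

  `nonspecial` : every `f̃ ≠ 0` of `Ft` which is regular off the `Q i = r (P i)` and has at most simple
  poles at the `Q i` is CONSTANT,   i.e.  `L(∑ Q i) = k` on the reduced curve,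

by residue comparison: lift `f̃` to `f ∈ G`; the residue theorem of `F / L` for `f · om a`, grouped by
residue discs (`ResComp5.disc_residue_sum`), reduces to `∑_i (t_i f̃)(Q i) · (red ψ_{a,i})(Q i) = 0`
for all `a`; nondegeneracy kills the polar parts.

`toNSSystem` packages the result as lead's `Ker0.NSSystem`.
-/
import Mathlib
import Fermat.Agent.RR.ResidueGlob
import Fermat.Agent.FF.NS.GenPos9
import Fermat.Agent.FF.NS.NSInput5
import Fermat.Agent.FF.NS.ResComp5

set_option autoImplicit false
set_option linter.unusedSectionVars false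
set_option linter.style.haveILetI false

namespace Fermat.Agent.FF.NS.NonSpecial5

open AlgebraicCurve
open Fermat.Agent.X0.FF Fermat.Agent.RR.LSpace Fermat.Agent.MW.EMB.Value6
open Fermat.Agent.RR.LocalResMain
open Fermat.Agent.FF.RED.RedDatum7 Fermat.Agent.FF.RED.Disc7 Fermat.Agent.FF.RED.Gauss7
open Fermat.Agent.FF.NS.ResNewton5 Fermat.Agent.FF.NS.ResComp5 Fermat.Agent.FF.NS.NSInput5

noncomputable section

variable {L F k Ft : Type*} [Field L] [Field F] [Algebra L F] [Field k] [Field Ft] [Algebra k Ft]
variable [IsAlgClosed L] [CharZero L] {x : F} (hx : IsGen L x)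
variable {D : RedDatum L F k Ft}

include hx

/-! ### differentials -/

/-- `d y ≠ 0` if `y` has a zero or a pole somewhere. -/
theorem D_ne_zero_of_ord_ne_zero (v : Place L F) {y : F} (hy : v.ord y ≠ 0) :
    KaehlerDifferential.D L F y ≠ 0 := by
  have htr : Transcendental L y := ffp_transcendental_of_ord_ne_zero v hy
  exact ffd_D_ne_zero y htr (ffx_isAlgebraic_of_transcendental x y (ffg_isAlgebraic hx) htr)

/-- a regular differential has a pole-free coefficient with respect to a good uniformizer. -/
theorem poleFree_coeff {P : Place L F} {u : D.G} (hu : IsGoodUnif D P u)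
    {ω : Ω[F⁄L]} (hω : ∀ v : Place L F, 0 ≤ v.ordDifferential ω) {ψ : F}
    (hψ : ω = ψ • KaehlerDifferential.D L F (u : F)) : D.PoleFree ψ (D.r P) := by
  intro v hv
  rcases eq_or_ne ψ 0 with rfl | hψ0
  · rw [Place.ord_zero]
  have hunif := hu.ord_sub_valF hv
  have hDu : KaehlerDifferential.D L F (u : F) =
      KaehlerDifferential.D L F ((u : F) - algebraMap L F (valF D.HL v (u : F))) :=
    (D_sub_const _ _).symm
  have hne : KaehlerDifferential.D L F (u : F) ≠ 0 := by
    rw [hDu]
    exact D_ne_zero_of_ord_ne_zero hx v (by rw [hunif]; exact one_ne_zero)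
  have h1 := ordDifferential_smul' hx v hψ0 hne
  have h2 : v.ordDifferential (KaehlerDifferential.D L F (u : F)) = 0 := by
    rw [hDu, ordDifferential_D_of_ord_ne_zero hx v (by rw [hunif]; exact one_ne_zero), hunif]
    norm_num
  have h3 := hω v
  rw [hψ, h1, h2, add_zero] at h3
  exact h3

/-- the residue of `f ω` vanishes where `f` is regular (`ω` a regular differential). -/
theorem residue_smul_eq_zero {ω : Ω[F⁄L]} (hω : ∀ v : Place L F, 0 ≤ v.ordDifferential ω)
    (f : F) (v : Place L F) (hf : 0 ≤ v.ord f) : residue hx v (f • ω) = 0 := by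
  apply residue_eq_zero hx v
  haveI := dCoordGenerates hx v
  haveI := nontrivial_kaehler hx
  rcases eq_or_ne f 0 with rfl | hf0
  · rw [zero_smul, Place.ordDifferential, Place.differentialCoeff_zero, Place.ord_zero]
  rcases eq_or_ne ω 0 with rfl | hω0
  · rw [smul_zero, Place.ordDifferential, Place.differentialCoeff_zero, Place.ord_zero]
  rw [ordDifferential_smul' hx v hf0 hω0]
  have := hω v
  omega

/-! ### the per-disc statement with a free name for the disc -/

open Classical in
theorem disc_residue_sum' {P : Place L F} {u : D.G} (hu : IsGoodUnif D P u) {Q : Place k Ft}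
    (hPQ : D.r P = Q) (f ψ : D.G) (hψ : D.PoleFree (ψ : F) Q) (Pol : Finset (Place L F))
    (hPol : ∀ v : Place L F, v.ord (f : F) < 0 → v ∈ Pol)
    (hreg : 0 ≤ Q.ord (D.red u * (D.red f * D.red ψ))) :
    ∃ c : D.A,
      ∑ v ∈ Pol.filter (fun v => D.r v = Q),
          residue hx v (((f : F) * (ψ : F)) • KaehlerDifferential.D L F (u : F)) = (c : L) ∧
        D.res c = valF D.Hk Q (D.red u * (D.red f * D.red ψ)) := by
  subst hPQ
  exact disc_residue_sum hx hu f ψ hψ Pol (fun v _ hv => hPol v hv) hreg

/-! ### the main theorem -/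

open Classical in
/-- **(NS) by residue comparison.**  A nonzero function of the reduced field, regular off the
`Q i = r (P i)` and with at most simple poles at the `Q i`, is constant. -/
theorem nonspecial (hsurj : Function.Surjective D.red) {g : ℕ} (I : NSInput D g)
    (ft : Ft) (hft0 : ft ≠ 0)
    (hoff : ∀ Q' : Place k Ft, (∀ i, D.r (I.P i) ≠ Q') → 0 ≤ Q'.ord ft)
    (hat : ∀ i, -1 ≤ (D.r (I.P i)).ord ft) : ∃ c : k, ft = algebraMap k Ft c := by
  obtain ⟨f, hf⟩ := hsurj ft
  -- `ft` has at most simple poles everywhere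
  have hord : ∀ Q : Place k Ft, -1 ≤ Q.ord ft := by
    intro Q
    by_cases h : ∃ i, D.r (I.P i) = Q
    · obtain ⟨i, rfl⟩ := h
      exact hat i
    · push Not at h
      have := hoff Q h
      omega
  -- a chart on every disc, the given ones on the discs of the centres
  have hex : ∀ Q : Place k Ft, ∃ (P : Place L F) (u : D.G) (ψ : Fin g → D.G),
      D.r P = Q ∧ IsGoodUnif D P u ∧
        (∀ a, I.om a = (ψ a : F) • KaehlerDifferential.D L F (u : F)) ∧
        ∀ i, D.r (I.P i) = Q → u = I.u i ∧ ∀ a, ψ a = I.psi a i := by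
    intro Q
    by_cases h : ∃ i, D.r (I.P i) = Q
    · obtain ⟨i, hi⟩ := h
      refine ⟨I.P i, I.u i, fun a => I.psi a i, hi, I.hu i, fun a => I.hpsi a i, ?_⟩
      intro j hj
      have : j = i := I.hinj (hj.trans hi.symm)
      subst this
      exact ⟨rfl, fun a => rfl⟩
    · obtain ⟨P, hP⟩ := D.r_surj Q
      obtain ⟨u, hu⟩ := exists_isGoodUnif D P
      choose ψ hψ using fun a => I.hint a P u hu
      refine ⟨P, u, ψ, hP, hu, hψ, ?_⟩
      intro i hi
      exact absurd ⟨i, hi⟩ h
  choose cen uc ψc hcenQ hgood hom hgiven using hex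
  -- regularity of the coefficients and of the reductions
  have hpf : ∀ (Q : Place k Ft) (a : Fin g), D.PoleFree ((ψc Q a : D.G) : F) Q := by
    intro Q a
    have := poleFree_coeff hx (hgood Q) (I.hreg a) (hom Q a)
    rwa [hcenQ Q] at this
  have htord : ∀ Q : Place k Ft, Q.ord (D.red (uc Q)) = 1 := by
    intro Q
    have := (hgood Q).ord_red
    rwa [hcenQ Q] at this
  have ht0 : ∀ Q : Place k Ft, D.red (uc Q) ≠ 0 := fun Q => (hgood Q).2.1
  have hψord : ∀ (Q : Place k Ft) (a : Fin g), D.red (ψc Q a) ≠ 0 → 0 ≤ Q.ord (D.red (ψc Q a)) :=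
    fun Q a h => D.ord_red_nonneg h (hpf Q a)
  -- the order of `t · (ft · ψ~)`
  have hprod : ∀ (Q : Place k Ft) (a : Fin g), D.red (ψc Q a) ≠ 0 →
      Q.ord (D.red (uc Q) * (ft * D.red (ψc Q a))) =
        1 + (Q.ord ft + Q.ord (D.red (ψc Q a))) := by
    intro Q a h
    rw [Q.ord_mul (ht0 Q) (mul_ne_zero hft0 h), Q.ord_mul hft0 h, htord Q]
  have hreg : ∀ (Q : Place k Ft) (a : Fin g), 0 ≤ Q.ord (D.red (uc Q) * (D.red f * D.red (ψc Q a))) := by
    intro Q a
    rw [hf]
    by_cases h : D.red (ψc Q a) = 0
    · rw [h, mul_zero, mul_zero, Place.ord_zero]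
    · rw [hprod Q a h]
      have h1 := hord Q
      have h2 := hψord Q a h
      omega
  -- the poles of the lift
  set Pol : Finset (Place L F) := (GenPos9.finite_ord_neg D.HL (f : F)).toFinset with hPoldef
  have hPol : ∀ v : Place L F, v.ord (f : F) < 0 → v ∈ Pol := fun v hv =>
    (Set.Finite.mem_toFinset _).mpr hv
  -- the per-disc constants
  have hdisc : ∀ (Q : Place k Ft) (a : Fin g), ∃ c : D.A,
      ∑ v ∈ Pol.filter (fun v => D.r v = Q), residue hx v ((f : F) • I.om a) = (c : L) ∧
        D.res c = valF D.Hk Q (D.red (uc Q) * (ft * D.red (ψc Q a))) := by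
    intro Q a
    obtain ⟨c, hc, hres⟩ := disc_residue_sum' hx (hgood Q) (hcenQ Q) f (ψc Q a) (hpf Q a) Pol hPol
      (hreg Q a)
    refine ⟨c, ?_, by rw [hres, hf]⟩
    rw [← hc]
    refine Finset.sum_congr rfl fun v _ => ?_
    rw [hom Q a, mul_smul]
  choose c hcsum hcres using hdisc
  -- the set of relevant discs
  set T : Finset (Place k Ft) :=
    Pol.image D.r ∪ Finset.univ.image (fun i => D.r (I.P i)) with hTdef
  have hTimg : ∀ v ∈ Pol, D.r v ∈ T := fun v hv =>
    Finset.mem_union_left _ (Finset.mem_image_of_mem _ hv)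
  -- the residue theorem, grouped by discs
  have hglob : ∀ a, ∑ Q ∈ T, ((c Q a : D.A) : L) = 0 := by
    intro a
    have h0 := Fermat.Agent.RR.ResidueGlob.finsum_residue_eq_zero hx ((f : F) • I.om a)
    have hsupp : Function.support (fun v : Place L F => residue hx v ((f : F) • I.om a)) ⊆
        ↑Pol := by
      intro v hv
      by_contra hvP
      apply hv
      apply residue_smul_eq_zero hx (I.hreg a)
      by_contra hneg
      exact hvP (Finset.mem_coe.mpr (hPol v (not_le.mp hneg)))
    rw [finsum_eq_sum_of_support_subset _ hsupp] at h0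
    rw [← h0, ← Finset.sum_fiberwise_of_maps_to hTimg]
    exact Finset.sum_congr rfl fun Q _ => (hcsum Q a).symm
  -- reduce modulo the maximal ideal
  have hglobk : ∀ a, ∑ Q ∈ T, valF D.Hk Q (D.red (uc Q) * (ft * D.red (ψc Q a))) = 0 := by
    intro a
    have h1 : (∑ Q ∈ T, c Q a : D.A) = 0 := by
      apply Subtype.ext
      rw [← D.A.subtype_apply, map_sum]
      exact hglob a
    have h2 := congrArg D.res h1
    rw [map_sum, map_zero] at h2
    rw [← h2]
    exact Finset.sum_congr rfl fun Q _ => (hcres Q a).symm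
  -- off the centres the terms vanish
  have hvanish : ∀ (Q : Place k Ft) (a : Fin g), (∀ i, D.r (I.P i) ≠ Q) →
      valF D.Hk Q (D.red (uc Q) * (ft * D.red (ψc Q a))) = 0 := by
    intro Q a hQ
    have hmem : D.red (uc Q) * (ft * D.red (ψc Q a)) ∈ Q.toValuationSubring := by
      apply ffp_mem_of_ord_nonneg
      have := hreg Q a
      rwa [hf] at this
    rw [valF_eq_zero_iff D.Hk Q hmem]
    by_cases h : D.red (ψc Q a) = 0
    · left; rw [h, mul_zero, mul_zero]
    · right
      rw [hprod Q a h]
      have h1 := hoff Q hQ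
      have h2 := hψord Q a h
      omega
  -- the polar coefficients
  set gam : Fin g → k := fun i => valF D.Hk (D.r (I.P i)) (D.red (I.u i) * ft) with hgam
  have hsys : ∀ a, ∑ i, gam i * valF D.Hk (D.r (I.P i)) (D.red (I.psi a i)) = 0 := by
    intro a
    have h1 := hglobk a
    have hsub : Finset.univ.image (fun i => D.r (I.P i)) ⊆ T := Finset.subset_union_right
    rw [← Finset.sum_subset hsub (fun Q _ hQ => hvanish Q a (fun i hi =>
      hQ (hi ▸ Finset.mem_image_of_mem _ (Finset.mem_univ i)))),
      Finset.sum_image (fun i _ j _ hij => I.hinj hij)] at h1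
    rw [← h1]
    refine Finset.sum_congr rfl fun i _ => ?_
    obtain ⟨hu_i, hψ_i⟩ := hgiven (D.r (I.P i)) i rfl
    rw [hu_i, hψ_i a, ← mul_assoc]
    have htmem : D.red (I.u i) * ft ∈ (D.r (I.P i)).toValuationSubring := by
      apply ffp_mem_of_ord_nonneg
      have hne : D.red (I.u i) ≠ 0 := (I.hu i).2.1
      rw [(D.r (I.P i)).ord_mul hne hft0, (I.hu i).ord_red]
      have := hat i
      omega
    have hψmem : D.red (I.psi a i) ∈ (D.r (I.P i)).toValuationSubring := by
      apply ffp_mem_of_ord_nonneg
      by_cases h : D.red (I.psi a i) = 0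
      · rw [h, Place.ord_zero]
      · exact D.ord_red_nonneg h (poleFree_coeff hx (I.hu i) (I.hreg a) (I.hpsi a i))
    rw [valF_mul D.Hk _ htmem hψmem]
  have hgam0 := I.nondeg gam hsys
  -- `ft` is regular everywhere
  have hall : ∀ Q : Place k Ft, 0 ≤ Q.ord ft := by
    intro Q
    by_cases h : ∃ i, D.r (I.P i) = Q
    · obtain ⟨i, rfl⟩ := h
      have hne : D.red (I.u i) ≠ 0 := (I.hu i).2.1
      have htmem : D.red (I.u i) * ft ∈ (D.r (I.P i)).toValuationSubring := by
        apply ffp_mem_of_ord_nonneg
        rw [(D.r (I.P i)).ord_mul hne hft0, (I.hu i).ord_red]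
        have := hat i
        omega
      have hi : gam i = 0 := congrFun hgam0 i
      rw [hgam] at hi
      rcases (valF_eq_zero_iff D.Hk _ htmem).mp hi with h0 | hpos
      · exact absurd h0 (mul_ne_zero hne hft0)
      · rw [(D.r (I.P i)).ord_mul hne hft0, (I.hu i).ord_red] at hpos
        omega
    · push Not at h
      exact hoff Q h
  exact eq_algebraMap_of_forall_ord_nonneg D.Hk hall

end

end Fermat.Agent.FF.NS.NonSpecial5
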