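/-
PROGRAMME FF (S19), chapter NS (helper9).  `NSThree9` = (R2): ANY NUMBER OF NON-SPECIAL SYSTEMS WITH
PAIRWISE DISTINCT DISCS.

* `toNSSystem` : an `NSInput5.NSInput` is a `Ker0.NSSystem` (by `NonSpecial5.nonspecial`);
* `exists_nsInputs n Bad` : `n` inputs of (NS) whose centres reduce outside `Bad` and into pairwise
  distinct discs (also across different systems);
* `exists_nsSystems n Bad` : the same for `Ker0.NSSystem`, with a common auxiliary disc `Q0` off
  `Bad` and off all the centres.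
-/
import Mathlib
import Fermat.Agent.FF.KER.Ker0
import Fermat.Agent.FF.NS.NonSpecial5
import Fermat.Agent.FF.NS.NSExists9

set_option autoImplicit false
set_option linter.unusedSectionVars false

namespace Fermat.Agent.FF.NS.NSThree9

open AlgebraicCurve KaehlerDifferential Fermat.Agent.X0.FF Fermat.Agent.RR.LSpace
  Fermat.Agent.MW.EMB.Value6
open Fermat.Agent.FF.RED.RedDatum7 Fermat.Agent.FF.RED.Disc7 Fermat.Agent.FF.NS.Link9
  Fermat.Agent.FF.NS.Orth9 Fermat.Agent.FF.NS.NSInput5 Fermat.Agent.FF.NS.NonSpecial5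
  Fermat.Agent.FF.NS.NSExists9 Fermat.Agent.FF.KER.Ker0

noncomputable section

variable {L F k Ft : Type*} [Field L] [Field F] [Algebra L F] [Field k] [Field Ft] [Algebra k Ft]
variable [IsAlgClosed L] [CharZero L] {x : F}
variable {D : RedDatum L F k Ft}

/-- An input of (NS) is a non-special system (residue comparison, `NonSpecial5.nonspecial`). -/
def toNSSystem (hx : IsGen L x) (hsurj : Function.Surjective D.red) {g : ℕ} (I : NSInput D g)
    (Q0 : Place k Ft) (hQ0 : ∀ i, D.r (I.P i) ≠ Q0) : NSSystem D g where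
  P := I.P
  u := I.u
  good := I.hu
  inj := I.hinj
  ns := nonspecial hx hsurj I
  Q0 := Q0
  hQ0 := hQ0

@[simp] theorem toNSSystem_P (hx : IsGen L x) (hsurj : Function.Surjective D.red) {g : ℕ}
    (I : NSInput D g) (Q0 : Place k Ft) (hQ0 : ∀ i, D.r (I.P i) ≠ Q0) :
    (toNSSystem hx hsurj I Q0 hQ0).P = I.P := rfl

@[simp] theorem toNSSystem_u (hx : IsGen L x) (hsurj : Function.Surjective D.red) {g : ℕ}
    (I : NSInput D g) (Q0 : Place k Ft) (hQ0 : ∀ i, D.r (I.P i) ≠ Q0) :
    (toNSSystem hx hsurj I Q0 hQ0).u = I.u := rfl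

@[simp] theorem toNSSystem_Q0 (hx : IsGen L x) (hsurj : Function.Surjective D.red) {g : ℕ}
    (I : NSInput D g) (Q0 : Place k Ft) (hQ0 : ∀ i, D.r (I.P i) ≠ Q0) :
    (toNSSystem hx hsurj I Q0 hQ0).Q0 = Q0 := rfl

variable [HasCanonicalDivisor (K := L) (F := F)] [Infinite k]

/-- `n` inputs of (NS) with pairwise distinct discs, off `Bad`. -/
theorem exists_nsInputs (hx : IsGen L x) {ι : Type*} (C : ChartCover D ι)
    (Bad : Finset (Place k Ft)) (n : ℕ) :
    ∃ S : Fin n → NSInput D (genus L F), (∀ a i, D.r ((S a).P i) ∉ Bad) ∧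
      ∀ a b, a ≠ b → ∀ i j, D.r ((S a).P i) ≠ D.r ((S b).P j) := by
  classical
  induction n with
  | zero => exact ⟨Fin.elim0, fun a => a.elim0, fun a => a.elim0⟩
  | succ n ih =>
    obtain ⟨S, hBad, hdis⟩ := ih
    let cen : Finset (Place k Ft) :=
      Finset.univ.biUnion fun a : Fin n => Finset.univ.image fun i => D.r ((S a).P i)
    obtain ⟨I, hI⟩ := exists_nsInput D hx C (Bad ∪ cen)
    have hIBad : ∀ i, D.r (I.P i) ∉ Bad := fun i h => hI i (Finset.mem_union_left _ h)
    have hIcen : ∀ i a j, D.r (I.P i) ≠ D.r ((S a).P j) := by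
      intro i a j h
      apply hI i
      apply Finset.mem_union_right
      rw [Finset.mem_biUnion]
      exact ⟨a, Finset.mem_univ _, Finset.mem_image.mpr ⟨j, Finset.mem_univ _, h.symm⟩⟩
    refine ⟨Fin.cons I S, ?_, ?_⟩
    · intro a
      refine Fin.cases ?_ (fun a' => ?_) a
      · simpa using hIBad
      · simpa using hBad a'
    · intro a b
      refine Fin.cases ?_ (fun a' => ?_) a <;> refine Fin.cases ?_ (fun b' => ?_) b
      · intro h; exact absurd rfl h
      · intro _ i j
        simpa using hIcen i b' j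
      · intro _ i j
        simpa using (hIcen j a' i).symm
      · intro h i j
        have h' : a' ≠ b' := fun e => h (by rw [e])
        simpa using hdis a' b' h' i j

/-- **(R2)** `n` non-special systems with pairwise distinct discs off `Bad`, and a common auxiliary
disc `Q0` off `Bad` and off all the centres. -/
theorem exists_nsSystems (hx : IsGen L x) (hsurj : Function.Surjective D.red) {ι : Type*}
    (C : ChartCover D ι) (Bad : Finset (Place k Ft)) (n : ℕ) :
    ∃ (S : Fin n → NSSystem D (genus L F)) (Q0 : Place k Ft), Q0 ∉ Bad ∧ (∀ a, (S a).Q0 = Q0) ∧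
      (∀ a i, D.r ((S a).P i) ∉ Bad) ∧
      (∀ a b i j, D.r ((S a).P i) = D.r ((S b).P j) → a = b ∧ i = j) ∧
      (∀ a i, D.r ((S a).P i) ≠ Q0) := by
  classical
  haveI := infinite_place_red D
  obtain ⟨S, hBad, hdis⟩ := exists_nsInputs hx C Bad n
  let cen : Finset (Place k Ft) :=
    Finset.univ.biUnion fun a : Fin n => Finset.univ.image fun i => D.r ((S a).P i)
  obtain ⟨Q0, hQ0⟩ := (Bad ∪ cen).finite_toSet.infinite_compl.nonempty
  rw [Set.mem_compl_iff, Finset.mem_coe, Finset.mem_union, not_or] at hQ0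
  have hQ0cen : ∀ a i, D.r ((S a).P i) ≠ Q0 := by
    intro a i h
    apply hQ0.2
    rw [Finset.mem_biUnion]
    exact ⟨a, Finset.mem_univ _, Finset.mem_image.mpr ⟨i, Finset.mem_univ _, h⟩⟩
  refine ⟨fun a => toNSSystem hx hsurj (S a) Q0 (hQ0cen a), Q0, hQ0.1, fun a => rfl,
    fun a i => hBad a i, ?_, fun a i => hQ0cen a i⟩
  intro a b i j h
  by_cases hab : a = b
  · subst hab
    exact ⟨rfl, (S a).hinj h⟩
  · exact absurd h (hdis a b hab i j)

end

end Fermat.Agent.FF.NS.NSThree9
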