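/-
PROGRAMME FF (S19), chapter NS (helper5): `NSFinal5` = the OUTPUT of chapter F3' in the form consumed by
F4/F5: non-special systems `Ker0.NSSystem D (genus L F)` with centres reducing outside a given finite
set of places of the reduced curve.

Inputs: `D : RedDatum L F k Ft` with a chart cover (`Link9.ChartCover`), `D.red` surjective, `k`
infinite, `L` algebraically closed of characteristic zero, `hx : IsGen L x`, `[HasCanonicalDivisor]`.

* `toNSSystem`         : `NSInput D g` + a disc off the centres ⇒ `NSSystem D g` (by `NonSpecial5.nonspecial`);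
* `exists_nsSystem`    : ∃ `S : NSSystem D (genus L F)` with all centres and `S.Q0` reducing off `Bad`;
* `exists_three_nsSystems` : three such systems with pairwise distinct discs (helper8's (R2)).
-/
import Mathlib
import Fermat.Agent.FF.KER.Ker0
import Fermat.Agent.FF.NS.NonSpecial5
import Fermat.Agent.FF.NS.NSExists9

set_option autoImplicit false
set_option linter.unusedSectionVars false

namespace Fermat.Agent.FF.NS.NSFinal5

open AlgebraicCurve
open Fermat.Agent.X0.FF Fermat.Agent.RR.LSpace Fermat.Agent.MW.EMB.Value6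
open Fermat.Agent.FF.RED.RedDatum7 Fermat.Agent.FF.RED.Disc7
open Fermat.Agent.FF.NS.NSInput5 Fermat.Agent.FF.NS.NonSpecial5 Fermat.Agent.FF.NS.NSExists9
open Fermat.Agent.FF.NS.Link9 Fermat.Agent.FF.KER.Ker0

noncomputable section

variable {L F k Ft : Type*} [Field L] [Field F] [Algebra L F] [Field k] [Field Ft] [Algebra k Ft]
variable [IsAlgClosed L] [CharZero L] {x : F}
variable {D : RedDatum L F k Ft}

/-- An input of (NS) and a disc off its centres give a non-special system. -/
def toNSSystem (hx : IsGen L x) (hsurj : Function.Surjective D.red) {g : ℕ} (I : NSInput D g)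
    (Q0 : Place k Ft) (hQ0 : ∀ i, D.r (I.P i) ≠ Q0) : NSSystem D g where
  P := I.P
  u := I.u
  good := I.hu
  inj := I.hinj
  ns := nonspecial hx hsurj I
  Q0 := Q0
  hQ0 := hQ0

@[simp] theorem toNSSystem_P (hx : IsGen L x) (hsurj : Function.Surjective D.red) {g : ℕ}
    (I : NSInput D g) (Q0 : Place k Ft) (hQ0 : ∀ i, D.r (I.P i) ≠ Q0) :
    (toNSSystem hx hsurj I Q0 hQ0).P = I.P := rfl

@[simp] theorem toNSSystem_Q0 (hx : IsGen L x) (hsurj : Function.Surjective D.red) {g : ℕ}
    (I : NSInput D g) (Q0 : Place k Ft) (hQ0 : ∀ i, D.r (I.P i) ≠ Q0) :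
    (toNSSystem hx hsurj I Q0 hQ0).Q0 = Q0 := rfl

variable [HasCanonicalDivisor (K := L) (F := F)] [Infinite k]

/-- **(NS)**: a non-special system of `genus L F` centres, all discs (and the auxiliary disc `Q0`)
outside a given finite set. -/
theorem exists_nsSystem (hx : IsGen L x) (hsurj : Function.Surjective D.red) {ι : Type*}
    (C : ChartCover D ι) (Bad : Finset (Place k Ft)) :
    ∃ S : NSSystem D (genus L F), (∀ i, D.r (S.P i) ∉ Bad) ∧ S.Q0 ∉ Bad := by
  classical
  obtain ⟨I, hI⟩ := exists_nsInput D hx C Bad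
  have : Infinite (Place k Ft) := Fermat.Agent.FF.NS.Orth9.infinite_place_red D
  obtain ⟨Q0, hQ0⟩ := Infinite.exists_notMem_finset
    (Bad ∪ Finset.univ.image fun i => D.r (I.P i))
  rw [Finset.mem_union, not_or] at hQ0
  have hQ0' : ∀ i, D.r (I.P i) ≠ Q0 := fun i h =>
    hQ0.2 (h ▸ Finset.mem_image_of_mem _ (Finset.mem_univ i))
  exact ⟨toNSSystem hx hsurj I Q0 hQ0', hI, hQ0.1⟩

/-- Three non-special systems with pairwise distinct discs, all outside a given finite set. -/
theorem exists_three_nsSystems (hx : IsGen L x) (hsurj : Function.Surjective D.red) {ι : Type*}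
    (C : ChartCover D ι) (Bad : Finset (Place k Ft)) :
    ∃ S0 S1 S2 : NSSystem D (genus L F),
      (∀ i, D.r (S0.P i) ∉ Bad) ∧ (∀ i, D.r (S1.P i) ∉ Bad) ∧ (∀ i, D.r (S2.P i) ∉ Bad) ∧
      (∀ i j, D.r (S0.P i) ≠ D.r (S1.P j)) ∧ (∀ i j, D.r (S0.P i) ≠ D.r (S2.P j)) ∧
      (∀ i j, D.r (S1.P i) ≠ D.r (S2.P j)) := by
  classical
  obtain ⟨S0, h0, -⟩ := exists_nsSystem hx hsurj C Bad
  obtain ⟨S1, h1, -⟩ := exists_nsSystem hx hsurj C
    (Bad ∪ Finset.univ.image fun i => D.r (S0.P i))
  obtain ⟨S2, h2, -⟩ := exists_nsSystem hx hsurj C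
    ((Bad ∪ Finset.univ.image fun i => D.r (S0.P i)) ∪ Finset.univ.image fun i => D.r (S1.P i))
  refine ⟨S0, S1, S2, h0, ?_, ?_, ?_, ?_, ?_⟩
  · intro i hi
    exact h1 i (Finset.mem_union_left _ hi)
  · intro i hi
    exact h2 i (Finset.mem_union_left _ (Finset.mem_union_left _ hi))
  · intro i j h
    exact h1 j (Finset.mem_union_right _ (h ▸ Finset.mem_image_of_mem _ (Finset.mem_univ i)))
  · intro i j h
    exact h2 j (Finset.mem_union_left _
      (Finset.mem_union_right _ (h ▸ Finset.mem_image_of_mem _ (Finset.mem_univ i))))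
  · intro i j h
    exact h2 j (Finset.mem_union_right _ (h ▸ Finset.mem_image_of_mem _ (Finset.mem_univ i)))

end

end Fermat.Agent.FF.NS.NSFinal5
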